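/-
Program F (S55, Poitou–Tate), chapter BR (bridge to the prelude), helper7:
the dual side.  `χ = cycloChar p`, `M' = M.dualTwist χ`.

* `cycloChar_eq_one_iff`, `cycloChar_eq_one_of_mem_fixingSubgroup_Kz`,
  `cycloChar_eq_one_of_mem_inertia` (`μ_p` is unramified outside `p`), `isUnramifiedOutside_Kz`.
* `exists_level`, `exists_splitting_field`: a finite-dimensional smooth `M`, unramified outside `S`, is
  trivialised by (exactly) the fixing subgroup of a finite extension of `ℚ` unramified outside `S`.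
* `smooth_dualTwist`, `unram_dualTwist`: the hypotheses of S55 are stable under `M ↦ M'`.
* `ddualEquiv`, `ddualIso`: `M ≅ (M')'` (evaluation).
-/
import Mathlib
import Fermat.Prelude.Def_GroupCohomology_ContinuousUnramified
import Fermat.Agent.S14.Fields
import Fermat.Agent.S05.Inertia

set_option autoImplicit false

namespace Fermat.Agent.PT.BR.DualTwist7

open CategoryTheory groupCohomology ExtCitation
open Fermat.Agent.S14.Fields (zeta zeta_spec Kz)
open Fermat.Agent.S14.ExtCocycle (chiHom GK)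

local notation "Qbar" => AlgebraicClosure ℚ
local notation "Γℚ" => (AlgebraicClosure ℚ ≃ₐ[ℚ] AlgebraicClosure ℚ)

variable (p : ℕ) [Fact p.Prime]

/-! ### The cyclotomic character -/

theorem cycloChar_eq_chiHom (σ : Γℚ) : cycloChar p σ = chiHom p σ := rfl

theorem cycloChar_eq_one_iff_mem_GK {σ : Γℚ} : cycloChar p σ = 1 ↔ σ ∈ GK p := by
  rw [cycloChar_eq_chiHom]
  exact (MonoidHom.mem_ker (f := chiHom p)).symm

/-- `χ(σ) = 1` iff `σ` fixes the chosen primitive `p`-th root of unity. -/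
theorem cycloChar_eq_one_iff {σ : Γℚ} : cycloChar p σ = 1 ↔ σ (zeta p) = zeta p := by
  rw [cycloChar_eq_one_iff_mem_GK, Fermat.Agent.S14.Fields.mem_GK_iff_apply_zeta]

theorem cycloChar_eq_one_of_mem_fixingSubgroup_Kz {σ : Γℚ} (h : σ ∈ (Kz p).fixingSubgroup) :
    cycloChar p σ = 1 := by
  rw [cycloChar_eq_one_iff_mem_GK, ← Fermat.Agent.S14.Fields.fixingSubgroup_Kz]
  exact h

/-- `μ_p` is unramified outside `p`: the cyclotomic character is trivial on inertia at `q ≠ p`. -/
theorem cycloChar_eq_one_of_mem_inertia {q : ℕ} (hq : q.Prime) (hqp : q ≠ p)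
    (A : ValuationSubring Qbar) (hA : A.LiesOverPrime q) {g : Γℚ}
    (hg : g ∈ A.inertiaSubgroupIn ℚ) : cycloChar p g = 1 := by
  have hp : p.Prime := Fact.out
  rw [cycloChar_eq_one_iff]
  by_contra hne
  have hζp : zeta p ^ p = 1 := (zeta_spec p).pow_eq_one
  have hζ0 : zeta p ≠ 0 := (zeta_spec p).ne_zero hp.ne_zero
  -- `ζ⁻¹ = ζ^(p-1)` and both are in `A`
  have hinv : (zeta p)⁻¹ = zeta p ^ (p - 1) := by
    rw [eq_comm, ← mul_right_inj' hζ0, mul_inv_cancel₀ hζ0, ← pow_succ', Nat.sub_add_cancel hp.pos, hζp]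
  have hζA : zeta p ∈ A := by
    rcases A.mem_or_inv_mem (zeta p) with h | h
    · exact h
    · have : zeta p = ((zeta p)⁻¹) ^ (p - 1) := by
        rw [inv_pow, ← hinv, inv_inv]
      rw [this]; exact pow_mem h _
  have hζinvA : (zeta p)⁻¹ ∈ A := by rw [hinv]; exact pow_mem hζA _
  -- `η = g ζ / ζ` is a nontrivial `p`-th root of unity congruent to `1`
  set η : Qbar := g (zeta p) * (zeta p)⁻¹ with hη
  have hη1 : η ≠ 1 := by
    intro h
    apply hne
    have := congrArg (· * zeta p) h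
    simpa [hη, mul_assoc, inv_mul_cancel₀ hζ0] using this
  have hηp : η ^ p = 1 := by
    rw [hη, mul_pow, ← map_pow, hζp, map_one, inv_pow, hζp, inv_one, mul_one]
  have hgζA : g (zeta p) ∈ A := (Fermat.Agent.S05.Inertia.apply_mem_iff hg _).2 hζA
  have hηA : η ∈ A := mul_mem hgζA hζinvA
  have hv1 : A.valuation (η - 1) < 1 := by
    have h1 : η - 1 = (g (zeta p) - zeta p) * (zeta p)⁻¹ := by
      rw [hη, sub_mul, mul_inv_cancel₀ hζ0]
    rw [h1, map_mul]
    have h2 : A.valuation (g (zeta p) - zeta p) < 1 :=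
      Fermat.Agent.S05.Inertia.valuation_sub_lt_one hg ((A.valuation_le_one_iff _).2 hζA)
    have h3 : A.valuation (zeta p)⁻¹ ≤ 1 := (A.valuation_le_one_iff _).2 hζinvA
    calc A.valuation (g (zeta p) - zeta p) * A.valuation (zeta p)⁻¹
        ≤ A.valuation (g (zeta p) - zeta p) * 1 := mul_le_mul_right h3 _
      _ < 1 := by rw [mul_one]; exact h2
  have hvk : ∀ k : ℕ, A.valuation (η ^ k - 1) < 1 := by
    intro k
    rw [← geom_sum_mul, map_mul]
    have h3 : A.valuation (∑ i ∈ Finset.range k, η ^ i) ≤ 1 :=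
      (A.valuation_le_one_iff _).2 (sum_mem fun i _ => pow_mem hηA i)
    calc A.valuation (∑ i ∈ Finset.range k, η ^ i) * A.valuation (η - 1)
        ≤ 1 * A.valuation (η - 1) := mul_le_mul_left h3 _
      _ < 1 := by rw [one_mul]; exact hv1
  -- the geometric sum vanishes, hence `p` is a nonunit of `A`
  have hgeom : ∑ i ∈ Finset.range p, η ^ i = 0 := by
    have h := geom_sum_mul η p
    rw [hηp, sub_self] at h
    exact (mul_eq_zero.1 h).resolve_right (sub_ne_zero.2 hη1)
  have hpsum : (p : Qbar) = -∑ i ∈ Finset.range p, (η ^ i - 1) := by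
    rw [Finset.sum_sub_distrib, hgeom, Finset.sum_const, Finset.card_range, nsmul_eq_mul, mul_one,
      zero_sub, neg_neg]
  have hvp : A.valuation (p : Qbar) < 1 := by
    rw [hpsum, Valuation.map_neg]
    exact Valuation.map_sum_lt _ one_ne_zero fun i _ => hvk i
  have hvp1 : A.valuation (p : Qbar) = 1 :=
    Fermat.Agent.S05.Inertia.valuation_prime_eq_one hq hA hp hqp
  rw [hvp1] at hvp
  exact lt_irrefl _ hvp

/-- `ℚ(ζ_p)` is unramified outside any `S ∋ p`. -/
theorem isUnramifiedOutside_Kz {S : Finset Nat.Primes} (hpS : pPrime p ∈ S) :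
    (Kz p).IsUnramifiedOutside S := by
  refine ⟨inferInstance, fun q hq A hA σ hσ => ?_⟩
  have hqp : (q : ℕ) ≠ p := by
    intro h
    apply hq
    have : q = pPrime p := Subtype.ext h
    rw [this]; exact hpS
  rw [Fermat.Agent.S14.Fields.fixingSubgroup_Kz, ← cycloChar_eq_one_iff_mem_GK]
  exact cycloChar_eq_one_of_mem_inertia p q.2 hqp A hA hσ

/-! ### Levels of a smooth finite-dimensional representation -/

section Level

variable {p}
variable (M : Rep (ZMod p) Γℚ) [FiniteDimensional (ZMod p) M]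

/-- Uniform smoothness: some finite extension of `ℚ` trivialises `M`. -/
theorem exists_level
    (hsm : ∀ m : M, ∃ F : IntermediateField ℚ Qbar, FiniteDimensional ℚ F ∧
      ∀ s ∈ F.fixingSubgroup, M.ρ s m = m) :
    ∃ F : IntermediateField ℚ Qbar, FiniteDimensional ℚ F ∧ ∀ s ∈ F.fixingSubgroup, M.ρ s = 1 := by
  have : Finite M := Module.finite_of_finite (ZMod p)
  choose F hF hFm using hsm
  have : ∀ m, FiniteDimensional ℚ (F m) := hF
  refine ⟨⨆ m, F m, inferInstance, fun s hs => ?_⟩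
  ext m
  exact hFm m s (IntermediateField.fixingSubgroup_antitone (le_iSup F m) hs)

/-- The splitting field of `M`: a finite extension of `ℚ`, unramified outside `S`, whose fixing
subgroup is exactly the kernel of `M.ρ`. -/
theorem exists_splitting_field (S : Finset Nat.Primes)
    (hsm : ∀ m : M, ∃ F : IntermediateField ℚ Qbar, FiniteDimensional ℚ F ∧
      ∀ s ∈ F.fixingSubgroup, M.ρ s m = m)
    (hMur : ∀ q : Nat.Primes, q ∉ S → ∀ A : ValuationSubring Qbar,
      A.LiesOverPrime (q : ℕ) → ∀ g ∈ A.inertiaSubgroupIn ℚ, M.ρ g = 1) :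
    ∃ F : IntermediateField ℚ Qbar, F.IsUnramifiedOutside S ∧
      ∀ s : Γℚ, s ∈ F.fixingSubgroup ↔ M.ρ s = 1 := by
  obtain ⟨F₀, hF₀, h₀⟩ := exists_level M hsm
  set H : Subgroup Γℚ := (M.ρ : Γℚ →* _).ker with hH
  have hle : F₀.fixingSubgroup ≤ H := fun s hs => MonoidHom.mem_ker.2 (h₀ s hs)
  have hHo : IsOpen (H : Set Γℚ) :=
    Subgroup.isOpen_mono hle (IntermediateField.fixingSubgroup_isOpen F₀)
  refine ⟨Fermat.Agent.S14.Fields.Lf H, ⟨Fermat.Agent.S14.Fields.finiteDimensional_Lf H hHo, ?_⟩, ?_⟩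
  · intro q hq A hA σ hσ
    rw [Fermat.Agent.S14.Fields.fixingSubgroup_Lf H hHo]
    exact MonoidHom.mem_ker.2 (hMur q hq A hA σ hσ)
  · intro s
    rw [Fermat.Agent.S14.Fields.fixingSubgroup_Lf H hHo]
    exact MonoidHom.mem_ker

end Level

/-! ### The hypotheses of S55 are stable under `M ↦ M.dualTwist (cycloChar p)` -/

section Stable

variable {p}
variable (M : Rep (ZMod p) Γℚ)

theorem dualTwist_ρ_eq_one {s : Γℚ} (h1 : M.ρ s = 1) (h2 : cycloChar p s = 1) :
    (M.dualTwist (cycloChar p)).ρ s = 1 := by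
  have h3 : M.ρ s⁻¹ = 1 := by
    have h := map_mul M.ρ s⁻¹ s
    rw [inv_mul_cancel, map_one, h1, mul_one] at h
    exact h.symm
  ext f m
  rw [Rep.dualTwist_ρ_apply, h2, h3]
  simp

theorem smooth_dualTwist [FiniteDimensional (ZMod p) M]
    (hsm : ∀ m : M, ∃ F : IntermediateField ℚ Qbar, FiniteDimensional ℚ F ∧
      ∀ s ∈ F.fixingSubgroup, M.ρ s m = m) :
    ∀ f : M.dualTwist (cycloChar p), ∃ F : IntermediateField ℚ Qbar, FiniteDimensional ℚ F ∧
      ∀ s ∈ F.fixingSubgroup, (M.dualTwist (cycloChar p)).ρ s f = f := by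
  obtain ⟨F₀, hF₀, h₀⟩ := exists_level M hsm
  intro f
  refine ⟨F₀ ⊔ Kz p, IntermediateField.finiteDimensional_sup F₀ (Kz p), fun s hs => ?_⟩
  rw [dualTwist_ρ_eq_one M (h₀ s (IntermediateField.fixingSubgroup_antitone le_sup_left hs))
    (cycloChar_eq_one_of_mem_fixingSubgroup_Kz p
      (IntermediateField.fixingSubgroup_antitone le_sup_right hs))]
  rfl

theorem unram_dualTwist {S : Finset Nat.Primes} (hpS : pPrime p ∈ S)
    (hMur : ∀ q : Nat.Primes, q ∉ S → ∀ A : ValuationSubring Qbar,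
      A.LiesOverPrime (q : ℕ) → ∀ g ∈ A.inertiaSubgroupIn ℚ, M.ρ g = 1) :
    ∀ q : Nat.Primes, q ∉ S → ∀ A : ValuationSubring Qbar,
      A.LiesOverPrime (q : ℕ) → ∀ g ∈ A.inertiaSubgroupIn ℚ,
        (M.dualTwist (cycloChar p)).ρ g = 1 := by
  intro q hq A hA g hg
  have hqp : (q : ℕ) ≠ p := by
    intro h
    apply hq
    have : q = pPrime p := Subtype.ext h
    rw [this]; exact hpS
  exact dualTwist_ρ_eq_one M (hMur q hq A hA g hg)
    (cycloChar_eq_one_of_mem_inertia p q.2 hqp A hA hg)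

instance finiteDimensional_dualTwist [FiniteDimensional (ZMod p) M] :
    FiniteDimensional (ZMod p) (M.dualTwist (cycloChar p)) :=
  inferInstanceAs (FiniteDimensional (ZMod p) (Module.Dual (ZMod p) M))

end Stable

/-! ### The double dual -/

section DoubleDual

variable {k : Type} [Field k] {G : Type} [Group G] (χ : G →* kˣ) (M : Rep k G)
  [FiniteDimensional k M]

/-- Evaluation `M ≃ (M')'`. -/
noncomputable def ddualEquiv : M ≃ₗ[k] ((M.dualTwist χ).dualTwist χ) :=
  Module.evalEquiv k M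

theorem ddualEquiv_apply (m : M) (f : Module.Dual k M) : ddualEquiv χ M m f = f m := rfl

theorem ddualEquiv_ρ (g : G) (m : M) :
    ddualEquiv χ M (M.ρ g m) = ((M.dualTwist χ).dualTwist χ).ρ g (ddualEquiv χ M m) := by
  apply LinearMap.ext
  intro f
  rw [Rep.dualTwist_ρ_apply]
  change f (M.ρ g m) = (χ g : k) • (ddualEquiv χ M m) ((M.dualTwist χ).ρ g⁻¹ f)
  rw [Rep.dualTwist_ρ_apply, map_smul, ddualEquiv_apply, LinearMap.comp_apply, inv_inv, smul_smul,
    map_inv, Units.mul_inv, one_smul]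

/-- `M ≅ (M')'` in `Rep k G`. -/
noncomputable def ddualIso : M ≅ (M.dualTwist χ).dualTwist χ :=
  Rep.mkIso (ρ := M.ρ) (σ := ((M.dualTwist χ).dualTwist χ).ρ)
    (Representation.Equiv.mk (ddualEquiv χ M) fun g => by
      ext m : 1
      exact ddualEquiv_ρ χ M g m)

end DoubleDual

end Fermat.Agent.PT.BR.DualTwist7
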