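/-
Program F (S55), chapter BR: the prelude's `IntermediateField.IsUnramifiedOutside S`
(inertia subgroups of valuation subrings of `ℚ̄`) versus ideal-theoretic ramification.

* `isUnramifiedOutside_iff_inertia` : for `L/ℚ` finite Galois inside `ℚ̄`,
  `L.IsUnramifiedOutside S ↔` for all `q ∉ S` and all primes `P` of `𝓞 L` containing `q`, the
  inertia group `P.inertia Gal(L/ℚ)` is trivial.
* `isUnramifiedOutside_map`, `isUnramifiedOutside_normalClosure` : conjugates and the Galois
  closure of a field unramified outside `S` are unramified outside `S` (so the fixing subgroups of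
  the GALOIS `L ∈ 𝓛_S` are cofinal among the level subgroups of the prelude).
-/
import Mathlib
import Fermat.Prelude.Def_GroupCohomology_ContinuousUnramified
import Fermat.Agent.S05.Inertia
import Fermat.Agent.S14.UnramLevel

set_option autoImplicit false

open NumberField
open scoped Pointwise

namespace Fermat.Agent.PT.BR.UnramBridge13

open Fermat.Agent.S13.UnramRam Fermat.Agent.S13.UnramVal

local notation "Qbar" => AlgebraicClosure ℚ

local instance isAlgClosureQbar13 : IsAlgClosure ℚ Qbar := ⟨inferInstance, inferInstance⟩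
local instance normalQbar13 : Normal ℚ Qbar := IsAlgClosure.normal ℚ Qbar
local instance isGaloisQbar13 : IsGalois ℚ Qbar := IsAlgClosure.isGalois ℚ Qbar

section Galois

variable (L : IntermediateField ℚ Qbar) [FiniteDimensional ℚ L] [IsGalois ℚ L]

omit [FiniteDimensional ℚ L] in
/-- If `σ` lies in the inertia group of a valuation subring `A` of `ℚ̄`, its restriction to `L`
lies in the inertia group of the prime `m_A ∩ 𝓞 L`. -/
theorem restrictNormal_mem_inertia (A : ValuationSubring Qbar) {σ : Qbar ≃ₐ[ℚ] Qbar}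
    (hσ : σ ∈ A.inertiaSubgroupIn ℚ) :
    AlgEquiv.restrictNormalHom L σ ∈ (primeBelow L A).inertia (L ≃ₐ[ℚ] L) := by
  intro x
  change (AlgEquiv.restrictNormalHom L σ) • x - x ∈ primeBelow L A
  rw [mem_primeBelow_iff]
  have hxA : (((x : L) : Qbar)) ∈ A := mem_of_isIntegral_int A
    (map_isIntegral_int (algebraMap L Qbar) x.2)
  have h1 := Fermat.Agent.S05.Inertia.apply_sub_mem_nonunits hσ hxA
  have h2 : ((((AlgEquiv.restrictNormalHom L σ) • x - x : 𝓞 L) : L) : Qbar)
      = σ ((x : L) : Qbar) - ((x : L) : Qbar) := by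
    have h3 : (((AlgEquiv.restrictNormalHom L σ) • x - x : 𝓞 L) : L)
        = (AlgEquiv.restrictNormalHom L σ) (x : L) - (x : L) := by
      change algebraMap (𝓞 L) L ((AlgEquiv.restrictNormalHom L σ) • x - x) = _
      rw [map_sub]
      change (((AlgEquiv.restrictNormalHom L σ) • x : 𝓞 L) : L) - ((x : 𝓞 L) : L) = _
      rw [Fermat.Agent.S14.UnramLevel.coe_smul_integer]
    rw [h3]
    have h4 : (((AlgEquiv.restrictNormalHom L σ) (x : L) : L) : Qbar) = σ ((x : L) : Qbar) :=
      AlgEquiv.restrictNormal_commutes σ L (x : L)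
    simp only [AddSubgroupClass.coe_sub, h4]
  rw [h2]; exact h1

/-- **Bridge**: `IsUnramifiedOutside` for a finite Galois `L/ℚ` is triviality of the
ideal-theoretic inertia groups at the primes not above `S`. -/
theorem isUnramifiedOutside_iff_inertia (S : Finset Nat.Primes) :
    L.IsUnramifiedOutside S ↔ ∀ q : Nat.Primes, q ∉ S → ∀ P : Ideal (𝓞 L), P.IsPrime →
      ((q : ℕ) : 𝓞 L) ∈ P → P.inertia (L ≃ₐ[ℚ] L) = ⊥ := by
  constructor
  · intro h q hq P hP hqP
    exact Fermat.Agent.S14.UnramLevel.inertia_eq_bot L q.2 (h.2 q hq) P hqP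
  · intro h
    refine ⟨inferInstance, fun q hq A hA σ hσ => ?_⟩
    have hmem := restrictNormal_mem_inertia L A hσ
    have hqP : ((q : ℕ) : 𝓞 L) ∈ primeBelow L A := by
      rw [mem_primeBelow_iff]
      have : ((((q : ℕ) : 𝓞 L) : L) : Qbar) = ((q : ℕ) : Qbar) := by simp
      rw [this]; exact hA
    rw [h q hq (primeBelow L A) inferInstance hqP, Subgroup.mem_bot] at hmem
    rw [IntermediateField.mem_fixingSubgroup_iff]
    intro x hx
    have h4 : (((AlgEquiv.restrictNormalHom L σ) (⟨x, hx⟩ : L) : L) : Qbar) = σ x :=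
      AlgEquiv.restrictNormal_commutes σ L (⟨x, hx⟩ : L)
    rw [← h4, hmem]; rfl

end Galois

section Conj

/-- Membership in the nonunits of a translated valuation subring. -/
theorem mem_smul_nonunits_iff (g : Qbar ≃ₐ[ℚ] Qbar) (A : ValuationSubring Qbar) (x : Qbar) :
    x ∈ (g • A).nonunits ↔ g⁻¹ x ∈ A.nonunits := by
  rw [ValuationSubring.mem_nonunits_iff_or, ValuationSubring.mem_nonunits_iff_or,
    ValuationSubring.mem_pointwise_smul_iff_inv_smul_mem, AlgEquiv.smul_def, map_inv₀]
  have : g⁻¹ x = 0 ↔ x = 0 := by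
    constructor
    · intro h
      have := congrArg g h
      rwa [map_zero, ← AlgEquiv.mul_apply, mul_inv_cancel, AlgEquiv.one_apply] at this
    · rintro rfl; exact map_zero _
  rw [this]

theorem liesOverPrime_smul (g : Qbar ≃ₐ[ℚ] Qbar) {A : ValuationSubring Qbar} {q : ℕ}
    (hA : A.LiesOverPrime q) : (g • A).LiesOverPrime q := by
  rw [ValuationSubring.LiesOverPrime, mem_smul_nonunits_iff, map_natCast]
  exact hA

/-- Conjugation of inertia subgroups. -/
theorem conj_mem_inertiaSubgroupIn {A : ValuationSubring Qbar} {q : ℕ} (hq : q.Prime)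
    (hA : A.LiesOverPrime q) (g : Qbar ≃ₐ[ℚ] Qbar) {τ : Qbar ≃ₐ[ℚ] Qbar}
    (hτ : τ ∈ A.inertiaSubgroupIn ℚ) :
    g * τ * g⁻¹ ∈ (g • A).inertiaSubgroupIn ℚ := by
  apply mem_inertiaSubgroupIn_qbar (g • A) hq (liesOverPrime_smul g hA)
  intro x hx
  rw [mem_smul_nonunits_iff]
  have h1 : g⁻¹ x ∈ A := mem_of_isIntegral_int A (map_isIntegral_int (g⁻¹ : Qbar ≃ₐ[ℚ] Qbar) hx)
  have h2 := Fermat.Agent.S05.Inertia.apply_sub_mem_nonunits hτ h1
  have h3 : g⁻¹ ((g * τ * g⁻¹) x - x) = τ (g⁻¹ x) - g⁻¹ x := by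
    rw [map_sub, AlgEquiv.mul_apply, AlgEquiv.mul_apply, ← AlgEquiv.mul_apply g⁻¹ g,
      inv_mul_cancel, AlgEquiv.one_apply]
  rw [h3]; exact h2

variable {S : Finset Nat.Primes}

/-- Conjugates of a field unramified outside `S` are unramified outside `S`. -/
theorem isUnramifiedOutside_map
    {F : IntermediateField ℚ Qbar} (hF : F.IsUnramifiedOutside S) (g : Qbar ≃ₐ[ℚ] Qbar) :
    (F.map (g : Qbar →ₐ[ℚ] Qbar)).IsUnramifiedOutside S := by
  have := hF.1
  refine ⟨?_, fun q hq A hA τ hτ => ?_⟩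
  · exact LinearEquiv.finiteDimensional (F.equivMap (g : Qbar →ₐ[ℚ] Qbar)).toLinearEquiv
  · have h1 : g⁻¹ * τ * g⁻¹⁻¹ ∈ (g⁻¹ • A).inertiaSubgroupIn ℚ :=
      conj_mem_inertiaSubgroupIn q.2 hA g⁻¹ hτ
    have h2 := hF.2 q hq (g⁻¹ • A) (liesOverPrime_smul g⁻¹ hA) h1
    rw [IntermediateField.mem_fixingSubgroup_iff] at h2 ⊢
    rintro _ ⟨x, hx, rfl⟩
    have h3 := h2 x hx
    rw [inv_inv, AlgEquiv.mul_apply, AlgEquiv.mul_apply] at h3
    have := congrArg g h3
    rw [← AlgEquiv.mul_apply g g⁻¹, mul_inv_cancel, AlgEquiv.one_apply] at this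
    exact this

/-- The Galois closure of a field unramified outside `S` is unramified outside `S`. -/
theorem isUnramifiedOutside_normalClosure {F : IntermediateField ℚ Qbar}
    (hF : F.IsUnramifiedOutside S) :
    (IntermediateField.normalClosure ℚ F Qbar).IsUnramifiedOutside S := by
  have := hF.1
  refine ⟨normalClosure.is_finiteDimensional ℚ F Qbar, fun q hq A hA τ hτ => ?_⟩
  have h1 : IntermediateField.normalClosure ℚ F Qbar ≤
      IntermediateField.fixedField (Subgroup.zpowers τ) := by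
    refine (IntermediateField.normalClosure_def'' (F := ℚ) (L := Qbar) F).le.trans ?_
    refine iSup_le fun g => (IntermediateField.le_iff_le _ _).2 ?_
    rw [Subgroup.zpowers_le]
    exact (isUnramifiedOutside_map hF g).2 q hq A hA hτ
  exact (IntermediateField.le_iff_le _ _).1 h1 (Subgroup.mem_zpowers τ)

/-- Every field unramified outside `S` is contained in a finite GALOIS extension of `ℚ`
unramified outside `S`. -/
theorem exists_isGalois_isUnramifiedOutside {F : IntermediateField ℚ Qbar}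
    (hF : F.IsUnramifiedOutside S) :
    ∃ L : IntermediateField ℚ Qbar, F ≤ L ∧ IsGalois ℚ L ∧ L.IsUnramifiedOutside S :=
  ⟨IntermediateField.normalClosure ℚ F Qbar, IntermediateField.le_normalClosure F,
    IsGalois.normalClosure ℚ F Qbar, isUnramifiedOutside_normalClosure hF⟩

end Conj

end Fermat.Agent.PT.BR.UnramBridge13

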