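/-
Program F (S55), chapter BR, helper13.

Two general facts of (infinite) Galois theory, for a Galois extension `Ω/K` with group
`G = Gal(Ω/K)`, needed to instantiate `PRO/InfLevel13` (inflation along a closed normal subgroup):

* `fixingSubgroup_le_sup`: for a finite subextension `E` and ANY subgroup `N`, the open subgroup
  `Gal(Ω/E) ⊔ N` contains `Gal(Ω/E')` as soon as `E'` contains the `N`-fixed elements of `E`;
* `hilbert90_level`: Hilbert 90 for level cochains restricted to an arbitrary subgroup `N`: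
  if `c : G → Ωˣ` is right-invariant under `Gal(Ω/E)`, takes values in `E` (finite over `K`) and is
  a cocycle on `N`, then it is a coboundary on `N`.
-/
import Mathlib

set_option autoImplicit false

namespace Fermat.Agent.PT.BR.InfGalois13

open IntermediateField

variable {K Ω : Type*} [Field K] [Field Ω] [Algebra K Ω]

/-- For a finite subextension `E` of a Galois extension `Ω/K` and any subgroup `N` of the Galois
group: `Gal(Ω/E') ≤ Gal(Ω/E) ⊔ N` as soon as `E'` contains the `N`-fixed elements of `E`. -/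
theorem fixingSubgroup_le_sup [IsGalois K Ω] (E : IntermediateField K Ω) [FiniteDimensional K E]
    (N : Subgroup (Ω ≃ₐ[K] Ω)) (E' : IntermediateField K Ω)
    (h : ∀ x ∈ E, (∀ n ∈ N, n x = x) → x ∈ E') :
    E'.fixingSubgroup ≤ E.fixingSubgroup ⊔ N := by
  set H : Subgroup (Ω ≃ₐ[K] Ω) := E.fixingSubgroup ⊔ N with hH
  have hopen : IsOpen (H : Set (Ω ≃ₐ[K] Ω)) :=
    Subgroup.isOpen_mono (le_sup_left : E.fixingSubgroup ≤ H)
      (IntermediateField.fixingSubgroup_isOpen E)
  have hclosed : IsClosed (H : Set (Ω ≃ₐ[K] Ω)) := Subgroup.isClosed_of_isOpen H hopen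
  let Hc : ClosedSubgroup (Ω ≃ₐ[K] Ω) := ⟨H, hclosed⟩
  have hfix : (IntermediateField.fixedField H).fixingSubgroup = H :=
    InfiniteGalois.fixingSubgroup_fixedField Hc
  rw [← hfix]
  apply IntermediateField.fixingSubgroup_antitone
  intro x hx
  rw [IntermediateField.mem_fixedField_iff] at hx
  apply h
  · rw [← InfiniteGalois.fixedField_fixingSubgroup E, IntermediateField.mem_fixedField_iff]
    intro σ hσ
    exact hx σ ((le_sup_left : E.fixingSubgroup ≤ H) hσ)
  · intro n hn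
    exact hx n ((le_sup_right : N ≤ H) hn)

/-- Hilbert 90 for a subgroup of the automorphism group of a finite extension. -/
theorem hilbert90_subgroup {E : Type*} [Field E] [Algebra K E] [FiniteDimensional K E]
    (H : Subgroup (E ≃ₐ[K] E)) (c : (E ≃ₐ[K] E) → Eˣ)
    (hc : ∀ σ ∈ H, ∀ τ ∈ H, c (σ * τ) = σ • c τ * c σ) :
    ∃ β : Eˣ, ∀ σ ∈ H, c σ = σ • β / β := by
  set K₀ := IntermediateField.fixedField H with hK₀
  have hfix : K₀.fixingSubgroup = H := IntermediateField.fixingSubgroup_fixedField H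
  let e := IntermediateField.fixingSubgroupEquiv K₀
  let f : (E ≃ₐ[K₀] E) → Eˣ := fun τ => c ((e.symm τ : K₀.fixingSubgroup) : E ≃ₐ[K] E)
  have hmem : ∀ τ : E ≃ₐ[K₀] E, ((e.symm τ : K₀.fixingSubgroup) : E ≃ₐ[K] E) ∈ H := by
    intro τ
    exact hfix.le (e.symm τ).2
  have hsmul : ∀ (τ : E ≃ₐ[K₀] E) (u : Eˣ),
      ((e.symm τ : K₀.fixingSubgroup) : E ≃ₐ[K] E) • u = τ • u := by
    intro τ u
    apply Units.ext
    rfl
  have hf : groupCohomology.IsMulCocycle₁ f := by
    intro τ τ'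
    show c ((e.symm (τ * τ') : K₀.fixingSubgroup) : E ≃ₐ[K] E) = τ • f τ' * f τ
    rw [map_mul, Subgroup.coe_mul, hc _ (hmem τ) _ (hmem τ'), hsmul]
  obtain ⟨β, hβ⟩ := groupCohomology.isMulCoboundary₁_of_isMulCocycle₁_of_aut_to_units f hf
  refine ⟨β, fun σ hσ => ?_⟩
  have hσ' : σ ∈ K₀.fixingSubgroup := hfix.ge hσ
  have h1 := hβ (e ⟨σ, hσ'⟩)
  have h2 : f (e ⟨σ, hσ'⟩) = c σ := by
    show c ((e.symm (e ⟨σ, hσ'⟩) : K₀.fixingSubgroup) : E ≃ₐ[K] E) = c σ
    rw [MulEquiv.symm_apply_apply]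
  have h3 : e ⟨σ, hσ'⟩ • β = σ • β := by
    rw [← hsmul, MulEquiv.symm_apply_apply]
  rw [← h2, ← h1, h3]

/-- A unit of `Ω` lying in the intermediate field `E`, as a unit of `E`. -/
def unitOfMem (E : IntermediateField K Ω) (u : Ωˣ) (h : (u : Ω) ∈ E) : (↥E)ˣ :=
  Units.mk0 ⟨u, h⟩ (fun h0 => u.ne_zero (congrArg Subtype.val h0))

@[simp] theorem coe_unitOfMem (E : IntermediateField K Ω) (u : Ωˣ) (h : (u : Ω) ∈ E) :
    (((unitOfMem E u h : (↥E)ˣ) : ↥E) : Ω) = u := rfl

/-- Hilbert 90 for level cochains, normal case. -/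
theorem hilbert90_level_of_normal [IsGalois K Ω] (N : Subgroup (Ω ≃ₐ[K] Ω))
    (E : IntermediateField K Ω) [FiniteDimensional K E] [Normal K E]
    (c : (Ω ≃ₐ[K] Ω) → Ωˣ) (hinv : ∀ g, ∀ s ∈ E.fixingSubgroup, c (g * s) = c g)
    (hval : ∀ g, (c g : Ω) ∈ E)
    (hcoc : ∀ n ∈ N, ∀ n' ∈ N, c (n * n') = n • c n' * c n) :
    ∃ β : Ωˣ, ∀ n ∈ N, c n = n • β / β := by
  let res : (Ω ≃ₐ[K] Ω) →* (E ≃ₐ[K] E) := AlgEquiv.restrictNormalHom E
  have hsurj : Function.Surjective res := AlgEquiv.restrictNormalHom_surjective Ω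
  have hker : res.ker = E.fixingSubgroup := IntermediateField.restrictNormalHom_ker E
  -- `c` factors through `res`
  have hfac : ∀ g g', res g = res g' → c g = c g' := by
    intro g g' h
    have hmem : g⁻¹ * g' ∈ E.fixingSubgroup := by
      rw [← hker, MonoidHom.mem_ker, map_mul, map_inv, h, inv_mul_cancel]
    have := hinv g _ hmem
    rw [mul_inv_cancel_left] at this
    exact this.symm
  let cbar : (E ≃ₐ[K] E) → (↥E)ˣ := fun σ => unitOfMem E (c (Function.surjInv hsurj σ)) (hval _)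
  have hcbar : ∀ g, (((cbar (res g) : (↥E)ˣ) : ↥E) : Ω) = c g := by
    intro g
    show ((c (Function.surjInv hsurj (res g)) : Ωˣ) : Ω) = c g
    rw [hfac _ g (Function.surjInv_eq hsurj (res g))]
  have hres : ∀ (g : Ω ≃ₐ[K] Ω) (x : ↥E), ((res g x : ↥E) : Ω) = g x :=
    fun g x => AlgEquiv.restrictNormalHom_apply E g x
  obtain ⟨β₀, hβ₀⟩ := hilbert90_subgroup (N.map res) cbar (by
    rintro _ ⟨n, hn, rfl⟩ _ ⟨n', hn', rfl⟩
    apply Units.ext
    apply Subtype.ext
    rw [← map_mul, hcbar, hcoc n hn n' hn']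
    simp only [Units.val_mul, AlgEquiv.smul_units_def, Units.coe_map, MonoidHom.coe_coe,
      MulMemClass.coe_mul, hres, hcbar])
  refine ⟨Units.map (E.val : ↥E →* Ω) β₀, fun n hn => ?_⟩
  have h1 := hβ₀ (res n) ⟨n, hn, rfl⟩
  apply Units.ext
  rw [← hcbar n, h1]
  simp only [AlgEquiv.smul_units_def, Units.val_div_eq_div_val, Units.coe_map, MonoidHom.coe_coe,
    IntermediateField.coe_div, hres, IntermediateField.coe_val]

/-- **Hilbert 90 for level cochains on a subgroup**: if `c : Gal(Ω/K) → Ωˣ` is right-invariant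
under `Gal(Ω/E)` and takes values in `E`, for a finite subextension `E`, and is a cocycle on the
subgroup `N`, then it is a coboundary on `N`. -/
theorem hilbert90_level [IsGalois K Ω] (N : Subgroup (Ω ≃ₐ[K] Ω))
    (E : IntermediateField K Ω) [FiniteDimensional K E]
    (c : (Ω ≃ₐ[K] Ω) → Ωˣ) (hinv : ∀ g, ∀ s ∈ E.fixingSubgroup, c (g * s) = c g)
    (hval : ∀ g, (c g : Ω) ∈ E)
    (hcoc : ∀ n ∈ N, ∀ n' ∈ N, c (n * n') = n • c n' * c n) :
    ∃ β : Ωˣ, ∀ n ∈ N, c n = n • β / β := by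
  have : FiniteDimensional K (IntermediateField.normalClosure K E Ω) :=
    normalClosure.is_finiteDimensional K E Ω
  have hle : E ≤ IntermediateField.normalClosure K E Ω := IntermediateField.le_normalClosure E
  exact hilbert90_level_of_normal N (IntermediateField.normalClosure K E Ω) c
    (fun g s hs => hinv g s (IntermediateField.fixingSubgroup_antitone hle hs))
    (fun g => hle (hval g)) hcoc

end Fermat.Agent.PT.BR.InfGalois13
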