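/-
Program F (S55), chapter BR: the local Galois group `Γ_q = Gal(PadicAlgCl q / ℚ_q)` embeds into
`Γ = Gal(ℚ̄/ℚ)` (Krasner), and "level-constant w.r.t. global finite fields" is the same as
"constant modulo an open subgroup of `Γ_q`".
-/
import Mathlib
import Fermat.Prelude.Def_GroupCohomology_ContinuousUnramified

set_option autoImplicit false

open Polynomial IntermediateField

namespace Fermat.Agent.PT.BR.LocInj13

variable (q : ℕ) [Fact q.Prime]

/-- Every element of `PadicAlgCl q` which is algebraic over `ℚ` comes from `ℚ̄`. -/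
theorem exists_padicEmbedding_eq_of_isIntegral {b : PadicAlgCl q} (hb : IsIntegral ℚ b) :
    ∃ β : AlgebraicClosure ℚ, padicEmbedding q β = b := by
  have h1 : b ∈ (minpoly ℚ b).rootSet (PadicAlgCl q) := by
    rw [Polynomial.mem_rootSet]
    exact ⟨minpoly.ne_zero hb, minpoly.aeval ℚ b⟩
  have hs : ((minpoly ℚ b).map (algebraMap ℚ (AlgebraicClosure ℚ))).Splits :=
    IsAlgClosed.splits _
  rw [← hs.image_rootSet (padicEmbedding q)] at h1
  obtain ⟨β, -, hβ⟩ := h1
  exact ⟨β, hβ⟩

/-- **Krasner approximation**: every element of `PadicAlgCl q` lies in `ℚ_q(ι β)` for some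
`β ∈ ℚ̄`. -/
theorem exists_mem_adjoin_padicEmbedding (a : PadicAlgCl q) :
    ∃ β : AlgebraicClosure ℚ, a ∈ ℚ_[q]⟮padicEmbedding q β⟯ := by
  classical
  set f : ℚ_[q][X] := minpoly ℚ_[q] a with hf
  have hint : IsIntegral ℚ_[q] a := Algebra.IsIntegral.isIntegral a
  have fmon : f.Monic := minpoly.monic hint
  have fa0 : f.aeval a = 0 := minpoly.aeval _ _
  have fnatdeg0 : f.natDegree ≠ 0 := (minpoly.natDegree_pos hint).ne'
  let S : Finset (PadicAlgCl q) := {x ∈ (f.rootSet (PadicAlgCl q)).toFinset | x ≠ a}
  let δ : ℝ := if hS : S.Nonempty then Finset.min' (S.image fun x => ‖a - x‖)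
      (Finset.image_nonempty.mpr hS) else 1
  have norm_sub_le : ∀ a' : PadicAlgCl q, IsConjRoot ℚ_[q] a a' → a ≠ a' → δ ≤ ‖a - a'‖ := by
    intro a' conj ne
    by_cases hS : S.Nonempty <;> simp only [hS, ↓reduceDIte, δ]
    · apply Finset.min'_le (S.image fun x => ‖a - x‖) (‖a - a'‖)
      apply Finset.mem_image_of_mem
      simp only [Finset.mem_filter, Set.mem_toFinset, S]
      rw [hf, ← (isConjRoot_iff_mem_minpoly_rootSet hint)]
      exact ⟨conj, ne.symm⟩
    · simp only [ne_eq, Finset.not_nonempty_iff_eq_empty, Finset.filter_eq_empty_iff,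
        Set.mem_toFinset, not_not, S] at hS
      rw [isConjRoot_iff_mem_minpoly_rootSet hint] at conj
      exact (ne (hS conj).symm).elim
  have δpos : δ > 0 := by
    by_cases hS : S.Nonempty <;> simp only [hS, ↓reduceDIte, δ]
    · simp only [gt_iff_lt, Finset.lt_min'_iff, Finset.mem_image, forall_exists_index, and_imp,
        forall_apply_eq_imp_iff₂]
      rintro a' ha'
      simp only [Finset.mem_filter, Set.mem_toFinset, S] at ha'
      rw [norm_pos_iff, sub_ne_zero]
      exact ha'.2.symm
    · linarith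
  have hε : (δ / (max ‖a‖ 1)) ^ f.natDegree / (f.natDegree + 1) > 0 := by positivity
  have hd : DenseRange (algebraMap ℚ ℚ_[q]) := by
    have : (algebraMap ℚ ℚ_[q] : ℚ → ℚ_[q]) = ((↑) : ℚ → ℚ_[q]) := by
      funext r; simp
    rw [this]; exact Padic.denseRange_ratCast q
  obtain ⟨g, gmon, gdeg, gcoeff⟩ :=
    exists_monic_and_natDegree_eq_and_norm_map_algebraMap_coeff_sub_lt hd fmon hε
  obtain ⟨b, hb, hab⟩ := exists_aroots_norm_sub_lt_of_norm_coeff_sub_lt (L := PadicAlgCl q)
      hε fa0 fmon (gmon.map _) (gdeg ▸ (g.natDegree_map _)) gcoeff (IsAlgClosed.splits _)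
  have hab : ‖a - b‖ < δ := by
    rw [← Real.rpow_natCast, ← mul_comm_div, div_self, one_mul,
        ← Real.rpow_mul (div_pos δpos (by positivity)).le, mul_inv_cancel₀] at hab
    · simpa [mul_assoc, div_mul_cancel₀ _ (by positivity : (max ‖a‖ 1) > 0).ne'] using hab
    · simp [fnatdeg0]
    · positivity
  simp only [Polynomial.mem_roots', ne_eq, Polynomial.map_eq_zero, Polynomial.IsRoot.def,
    Polynomial.eval_map_algebraMap] at hb
  -- `b` is algebraic over `ℚ`
  have hbint : IsIntegral ℚ b := by
    refine ⟨g, gmon, ?_⟩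
    have := hb.2
    rwa [Polynomial.aeval_map_algebraMap] at this
  obtain ⟨β, hβ⟩ := exists_padicEmbedding_eq_of_isIntegral q hbint
  refine ⟨β, ?_⟩
  rw [hβ]
  have masp : ((minpoly ℚ_[q] a).map (algebraMap ℚ_[q] (PadicAlgCl q))).Splits :=
    IsAlgClosed.splits _
  exact IsKrasner.krasner (minpoly.irreducible hint).separable masp
    (Algebra.IsIntegral.isIntegral b)
    fun a' h1 h2 ↦ lt_of_lt_of_le hab (norm_sub_le a' h1 h2)

/-- A finite-dimensional intermediate field is generated by a finite set. -/
theorem fg_of_finiteDimensional {K L : Type*} [Field K] [Field L] [Algebra K L]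
    (F : IntermediateField K L) [FiniteDimensional K F] : F.FG := by
  apply IntermediateField.fg_of_fg_toSubalgebra
  apply Subalgebra.fg_of_fg_toSubmodule
  exact (Module.Finite.iff_fg (N := F.toSubalgebra.toSubmodule)).1 ‹FiniteDimensional K F›

/-- The local field `ℚ_q(ι F)` generated by a global field `F ⊆ ℚ̄`. -/
noncomputable def localField (F : IntermediateField ℚ (AlgebraicClosure ℚ)) :
    IntermediateField ℚ_[q] (PadicAlgCl q) :=
  IntermediateField.adjoin ℚ_[q] (padicEmbedding q '' (F : Set (AlgebraicClosure ℚ)))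

theorem padicEmbedding_mem_localField {F : IntermediateField ℚ (AlgebraicClosure ℚ)}
    {x : AlgebraicClosure ℚ} (hx : x ∈ F) : padicEmbedding q x ∈ localField q F :=
  IntermediateField.subset_adjoin _ _ ⟨x, hx, rfl⟩

theorem localField_mono {F F' : IntermediateField ℚ (AlgebraicClosure ℚ)} (h : F ≤ F') :
    localField q F ≤ localField q F' :=
  IntermediateField.adjoin.mono _ _ _ (Set.image_mono h)

/-- `τ ∈ Γ_q` fixes `ℚ_q(ι F)` iff its image in `Γ` fixes `F`. -/
theorem mem_fixingSubgroup_localField_iff (F : IntermediateField ℚ (AlgebraicClosure ℚ))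
    (τ : PadicAlgCl q ≃ₐ[ℚ_[q]] PadicAlgCl q) :
    τ ∈ (localField q F).fixingSubgroup ↔ localGaloisToGlobal q τ ∈ F.fixingSubgroup := by
  rw [IntermediateField.mem_fixingSubgroup_iff, IntermediateField.mem_fixingSubgroup_iff]
  constructor
  · intro h x hx
    have hinj : Function.Injective (padicEmbedding q) := (padicEmbedding q).injective
    apply hinj
    rw [padicEmbedding_localGaloisToGlobal]
    exact h _ (padicEmbedding_mem_localField q hx)
  · intro h
    have hle : localField q F ≤ IntermediateField.fixedField (Subgroup.zpowers τ) := by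
      rw [localField, IntermediateField.adjoin_le_iff]
      rintro _ ⟨x, hx, rfl⟩
      rw [SetLike.mem_coe, IntermediateField.mem_fixedField_iff]
      intro σ hσ
      obtain ⟨n, rfl⟩ := Subgroup.mem_zpowers_iff.1 hσ
      have h1 : τ (padicEmbedding q x) = padicEmbedding q x := by
        rw [← padicEmbedding_localGaloisToGlobal, h x hx]
      have h2 : ∀ m : ℕ, (τ ^ m) (padicEmbedding q x) = padicEmbedding q x := by
        intro m
        induction m with
        | zero => simp
        | succ m ih => rw [pow_succ, AlgEquiv.mul_apply, h1, ih]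
      have h3 : ∀ m : ℕ, (τ ^ m)⁻¹ (padicEmbedding q x) = padicEmbedding q x := by
        intro m
        have := h2 m
        conv_lhs => rw [← this]
        exact (τ ^ m).symm_apply_apply _
      cases n with
      | ofNat m => simpa using h2 m
      | negSucc m => simpa [zpow_negSucc] using h3 (m + 1)
    intro y hy
    exact (IntermediateField.mem_fixedField_iff _ _).1 (hle hy) τ (Subgroup.mem_zpowers τ)

/-- **`Γ_q → Γ` is injective.** -/
theorem localGaloisToGlobal_injective : Function.Injective (localGaloisToGlobal q) := by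
  rw [injective_iff_map_eq_one]
  intro τ hτ
  ext a
  obtain ⟨β, hβ⟩ := exists_mem_adjoin_padicEmbedding q a
  have h1 : τ ∈ (localField q ℚ⟮β⟯).fixingSubgroup := by
    rw [mem_fixingSubgroup_localField_iff, hτ]
    exact one_mem _
  have h2 : ℚ_[q]⟮padicEmbedding q β⟯ ≤ localField q ℚ⟮β⟯ := by
    rw [IntermediateField.adjoin_simple_le_iff]
    exact padicEmbedding_mem_localField q (IntermediateField.mem_adjoin_simple_self ℚ β)
  exact (IntermediateField.mem_fixingSubgroup_iff _ _).1 h1 a (h2 hβ)

/-- `ℚ_q(ι (ℚ(s))) = ℚ_q(ι s)`. -/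
theorem localField_adjoin (s : Set (AlgebraicClosure ℚ)) :
    localField q (IntermediateField.adjoin ℚ s) =
      IntermediateField.adjoin ℚ_[q] (padicEmbedding q '' s) := by
  apply le_antisymm
  · rw [localField, IntermediateField.adjoin_le_iff]
    rintro _ ⟨x, hx, rfl⟩
    -- the preimage of `ℚ_q(ι s)` in `ℚ̄` is an intermediate field containing `s`
    let P : IntermediateField ℚ (AlgebraicClosure ℚ) :=
      ((IntermediateField.adjoin ℚ_[q] (padicEmbedding q '' s)).restrictScalars ℚ).comap
        (padicEmbedding q)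
    have hP : IntermediateField.adjoin ℚ s ≤ P := by
      rw [IntermediateField.adjoin_le_iff]
      intro y hy
      exact IntermediateField.subset_adjoin _ _ ⟨y, hy, rfl⟩
    exact hP hx
  · exact IntermediateField.adjoin.mono _ _ _
      (Set.image_mono (IntermediateField.subset_adjoin ℚ s))

instance finiteDimensional_localField (F : IntermediateField ℚ (AlgebraicClosure ℚ))
    [FiniteDimensional ℚ F] : FiniteDimensional ℚ_[q] (localField q F) := by
  obtain ⟨t, ht⟩ := fg_of_finiteDimensional F
  rw [← ht, localField_adjoin]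
  have : Finite (padicEmbedding q '' (t : Set (AlgebraicClosure ℚ))) :=
    (t.finite_toSet.image _).to_subtype
  exact IntermediateField.finiteDimensional_adjoin fun x _ => Algebra.IsIntegral.isIntegral x

/-- Every finite extension of `ℚ_q` inside `PadicAlgCl q` is contained in `ℚ_q(ι F)` for a
finite `F/ℚ` (Krasner). -/
theorem exists_le_localField (E : IntermediateField ℚ_[q] (PadicAlgCl q))
    [FiniteDimensional ℚ_[q] E] :
    ∃ F : IntermediateField ℚ (AlgebraicClosure ℚ), FiniteDimensional ℚ F ∧ E ≤ localField q F := by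
  classical
  obtain ⟨t, ht⟩ := fg_of_finiteDimensional E
  choose β hβ using exists_mem_adjoin_padicEmbedding q
  refine ⟨IntermediateField.adjoin ℚ ((t.image β : Finset _) : Set (AlgebraicClosure ℚ)), ?_, ?_⟩
  · have : Finite ((t.image β : Finset _) : Set (AlgebraicClosure ℚ)) :=
      (Finset.finite_toSet _).to_subtype
    exact IntermediateField.finiteDimensional_adjoin fun x _ =>
      (AlgebraicClosure.isAlgebraic ℚ).isIntegral.isIntegral x
  · rw [← ht, IntermediateField.adjoin_le_iff, localField_adjoin]
    intro a ha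
    have h1 : ℚ_[q]⟮padicEmbedding q (β a)⟯ ≤
        IntermediateField.adjoin ℚ_[q]
          (padicEmbedding q '' ((t.image β : Finset _) : Set (AlgebraicClosure ℚ))) := by
      rw [IntermediateField.adjoin_simple_le_iff]
      refine IntermediateField.subset_adjoin _ _ ⟨β a, ?_, rfl⟩
      simp only [Finset.coe_image, Set.mem_image, Finset.mem_coe]
      exact ⟨a, ha, rfl⟩
    exact h1 (hβ a)

/-- Level-constancy w.r.t. global finite fields (the prelude's notion, via `Γ_q → Γ`) is the same
as being constant modulo the fixing subgroup of a finite extension of `ℚ_q` (an open subgroup). -/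
theorem isLevelConstant₁_iff {X : Type*} (f : (PadicAlgCl q ≃ₐ[ℚ_[q]] PadicAlgCl q) → X) :
    groupCohomology.IsLevelConstant₁ (localGaloisToGlobal q) f ↔
      ∃ E : IntermediateField ℚ_[q] (PadicAlgCl q), FiniteDimensional ℚ_[q] E ∧
        ∀ g s, s ∈ E.fixingSubgroup → f (g * s) = f g := by
  constructor
  · rintro ⟨F, hF, h⟩
    exact ⟨localField q F, inferInstance, fun g s hs =>
      h g s ((mem_fixingSubgroup_localField_iff q F s).1 hs)⟩
  · rintro ⟨E, hE, h⟩
    obtain ⟨F, hF, hEF⟩ := exists_le_localField q E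
    exact ⟨F, hF, fun g s hs => h g s (IntermediateField.fixingSubgroup_antitone hEF
      ((mem_fixingSubgroup_localField_iff q F s).2 hs))⟩

theorem isLevelConstant₂_iff {X : Type*}
    (f : (PadicAlgCl q ≃ₐ[ℚ_[q]] PadicAlgCl q) × (PadicAlgCl q ≃ₐ[ℚ_[q]] PadicAlgCl q) → X) :
    groupCohomology.IsLevelConstant₂ (localGaloisToGlobal q) f ↔
      ∃ E : IntermediateField ℚ_[q] (PadicAlgCl q), FiniteDimensional ℚ_[q] E ∧
        ∀ g g' s s', s ∈ E.fixingSubgroup → s' ∈ E.fixingSubgroup →
          f (g * s, g' * s') = f (g, g') := by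
  constructor
  · rintro ⟨F, hF, h⟩
    exact ⟨localField q F, inferInstance, fun g g' s s' hs hs' =>
      h g g' s s' ((mem_fixingSubgroup_localField_iff q F s).1 hs)
        ((mem_fixingSubgroup_localField_iff q F s').1 hs')⟩
  · rintro ⟨E, hE, h⟩
    obtain ⟨F, hF, hEF⟩ := exists_le_localField q E
    exact ⟨F, hF, fun g g' s s' hs hs' => h g g' s s'
      (IntermediateField.fixingSubgroup_antitone hEF
        ((mem_fixingSubgroup_localField_iff q F s).2 hs))
      (IntermediateField.fixingSubgroup_antitone hEF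
        ((mem_fixingSubgroup_localField_iff q F s').2 hs'))⟩

theorem primeLocalToGlobal_injective (q : Nat.Primes) :
    Function.Injective (ExtCitation.primeLocalToGlobal q) := by
  have : Fact (q : ℕ).Prime := ⟨q.2⟩
  exact localGaloisToGlobal_injective (q : ℕ)

end Fermat.Agent.PT.BR.LocInj13

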