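/-
Program F (S55), chapter BR: the prelude's "level-constant" cochains are the level cochains of
`PRO/LevelCoh28` for explicit bases of open subgroups.

* `globalSets S = {Gal(ℚ̄/F) | F unramified outside S}` is an `IsLevelBasis` of `Γ = Gal(ℚ̄/ℚ)`;
* `pullSets r = {r⁻¹ Gal(ℚ̄/F) | F finite}` and `pullSetsS r S` are `IsLevelBasis` of any group `G`
  with `r : G →* Γ` (e.g. `Γ_q`, `⟨c⟩`);
* `IsLevelConstantS₁/₂ S = IsLevel₁/₂ (globalSets S)`, `IsLevelConstant₁/₂ r = IsLevel₁/₂ (pullSets r)`;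
* the prelude's cochain/cocycle/coboundary submodules and `continuousH2S`, `continuousH2 r`,
  `continuousH1S` are those of `LevelCoh28`.
-/
import Mathlib
import Fermat.Prelude.Def_GroupCohomology_ContinuousUnramified
import Fermat.Agent.PT.PRO.LevelCoh28
import Fermat.Agent.PT.BR.LocInj13
import Fermat.Agent.PT.BR.UnramBridge13

set_option autoImplicit false

open groupCohomology CategoryTheory

namespace Fermat.Agent.PT.BR.LevelBridge13

open Fermat.Agent.PT.PRO

local notation "Qbar" => AlgebraicClosure ℚ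
local notation "Γ" => (AlgebraicClosure ℚ ≃ₐ[ℚ] AlgebraicClosure ℚ)

local instance isAlgClosureQbarLB13 : IsAlgClosure ℚ Qbar := ⟨inferInstance, inferInstance⟩
local instance normalQbarLB13 : Normal ℚ Qbar := IsAlgClosure.normal ℚ Qbar
local instance isGaloisQbarLB13 : IsGalois ℚ Qbar := IsAlgClosure.isGalois ℚ Qbar

/-! ### Generalities on fixing subgroups of finite extensions -/

theorem finiteIndex_fixingSubgroup (F : IntermediateField ℚ Qbar) [FiniteDimensional ℚ F] :
    F.fixingSubgroup.FiniteIndex := by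
  refine ⟨?_⟩
  rw [← IntermediateField.finrank_eq_fixingSubgroup_index]
  exact Module.finrank_pos.ne'

theorem normal_fixingSubgroup (F : IntermediateField ℚ Qbar) [h : IsGalois ℚ F] :
    F.fixingSubgroup.Normal :=
  @IsGalois.fixingSubgroup_normal_of_isGalois ℚ Qbar _ _ _ F _ h

/-- Every finite extension of `ℚ` inside `ℚ̄` is contained in a finite Galois one. -/
theorem exists_isGalois_ge (F : IntermediateField ℚ Qbar) [FiniteDimensional ℚ F] :
    ∃ L : IntermediateField ℚ Qbar, F ≤ L ∧ FiniteDimensional ℚ L ∧ IsGalois ℚ L :=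
  ⟨IntermediateField.normalClosure ℚ F Qbar, IntermediateField.le_normalClosure F,
    normalClosure.is_finiteDimensional ℚ F Qbar, IsGalois.normalClosure ℚ F Qbar⟩

/-! ### The global basis -/

section Global

variable (S : Finset Nat.Primes)

/-- The open subgroups `Gal(ℚ̄/F)`, `F` finite and unramified outside `S`. -/
def globalSets : Set (Subgroup Γ) :=
  {U | ∃ F : IntermediateField ℚ Qbar, F.IsUnramifiedOutside S ∧ U = F.fixingSubgroup}

theorem isLevelBasis_globalSets : LevelCoh28.IsLevelBasis (globalSets S) where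
  nonempty := ⟨_, ⊥, IntermediateField.isUnramifiedOutside_bot S, rfl⟩
  directed := by
    rintro _ ⟨F, hF, rfl⟩ _ ⟨F', hF', rfl⟩
    refine ⟨_, ⟨F ⊔ F', hF.sup hF', rfl⟩, ?_⟩
    rw [IntermediateField.fixingSubgroup_sup]
  normalCore := by
    rintro _ ⟨F, hF, rfl⟩
    obtain ⟨L, hFL, hL, hLS⟩ := UnramBridge13.exists_isGalois_isUnramifiedOutside hF
    exact ⟨_, ⟨L, hLS, rfl⟩, IntermediateField.fixingSubgroup_antitone hFL,
      normal_fixingSubgroup L⟩
  finiteIndex := by
    rintro _ ⟨F, hF, rfl⟩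
    have := hF.1
    exact finiteIndex_fixingSubgroup F

/-- The level basis of `Γ` defining `G_S`-cohomology. -/
def globalBasis : LevelCoh28.LevelBasis Γ := ⟨globalSets S, isLevelBasis_globalSets S⟩

theorem isLevel₁_globalSets_iff {X : Type*} (f : Γ → X) :
    LevelCoh28.IsLevel₁ (globalSets S) f ↔ IsLevelConstantS₁ S f := by
  constructor
  · rintro ⟨_, ⟨F, hF, rfl⟩, h⟩
    exact ⟨F, hF, fun g s hs => h g s hs⟩
  · rintro ⟨F, hF, h⟩
    exact ⟨_, ⟨F, hF, rfl⟩, fun g s hs => h g s hs⟩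

theorem isLevel₂_globalSets_iff {X : Type*} (f : Γ × Γ → X) :
    LevelCoh28.IsLevel₂ (globalSets S) f ↔ IsLevelConstantS₂ S f := by
  constructor
  · rintro ⟨_, ⟨F, hF, rfl⟩, h⟩
    exact ⟨F, hF, fun g g' s s' hs hs' => h g g' s hs s' hs'⟩
  · rintro ⟨F, hF, h⟩
    exact ⟨_, ⟨F, hF, rfl⟩, fun g g' s hs s' hs' => h g g' s s' hs hs'⟩

end Global

/-! ### Pulled-back bases -/

section Pull

variable {G : Type} [Group G] (r : G →* Γ)

/-- The subgroups `r⁻¹ Gal(ℚ̄/F)`, `F` finite over `ℚ`. -/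
def pullSets : Set (Subgroup G) :=
  {U | ∃ F : IntermediateField ℚ Qbar, FiniteDimensional ℚ F ∧ U = F.fixingSubgroup.comap r}

/-- The subgroups `r⁻¹ Gal(ℚ̄/F)`, `F` finite over `ℚ` and unramified outside `S`. -/
def pullSetsS (S : Finset Nat.Primes) : Set (Subgroup G) :=
  {U | ∃ F : IntermediateField ℚ Qbar, F.IsUnramifiedOutside S ∧ U = F.fixingSubgroup.comap r}

theorem finiteIndex_comap {H : Subgroup Γ} [H.FiniteIndex] : (H.comap r).FiniteIndex := by
  refine ⟨?_⟩
  rw [Subgroup.index_comap]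
  exact (Subgroup.instFiniteIndex_subgroupOf H r.range).index_ne_zero

theorem isLevelBasis_pullSets : LevelCoh28.IsLevelBasis (pullSets r) where
  nonempty := ⟨_, ⊥, inferInstance, rfl⟩
  directed := by
    rintro _ ⟨F, hF, rfl⟩ _ ⟨F', hF', rfl⟩
    refine ⟨_, ⟨F ⊔ F', IntermediateField.finiteDimensional_sup F F', rfl⟩, ?_⟩
    rw [IntermediateField.fixingSubgroup_sup, Subgroup.comap_inf]
  normalCore := by
    rintro _ ⟨F, hF, rfl⟩
    obtain ⟨L, hFL, hL, hLG⟩ := exists_isGalois_ge F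
    exact ⟨_, ⟨L, hL, rfl⟩,
      Subgroup.comap_mono (IntermediateField.fixingSubgroup_antitone hFL),
      (normal_fixingSubgroup L).comap r⟩
  finiteIndex := by
    rintro _ ⟨F, hF, rfl⟩
    have := finiteIndex_fixingSubgroup F
    exact finiteIndex_comap r

theorem isLevelBasis_pullSetsS (S : Finset Nat.Primes) :
    LevelCoh28.IsLevelBasis (pullSetsS r S) where
  nonempty := ⟨_, ⊥, IntermediateField.isUnramifiedOutside_bot S, rfl⟩
  directed := by
    rintro _ ⟨F, hF, rfl⟩ _ ⟨F', hF', rfl⟩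
    refine ⟨_, ⟨F ⊔ F', hF.sup hF', rfl⟩, ?_⟩
    rw [IntermediateField.fixingSubgroup_sup, Subgroup.comap_inf]
  normalCore := by
    rintro _ ⟨F, hF, rfl⟩
    obtain ⟨L, hFL, hL, hLS⟩ := UnramBridge13.exists_isGalois_isUnramifiedOutside hF
    exact ⟨_, ⟨L, hLS, rfl⟩,
      Subgroup.comap_mono (IntermediateField.fixingSubgroup_antitone hFL),
      (normal_fixingSubgroup L).comap r⟩
  finiteIndex := by
    rintro _ ⟨F, hF, rfl⟩
    have := hF.1
    have := finiteIndex_fixingSubgroup F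
    exact finiteIndex_comap r

/-- The level basis of `G` pulled back from all finite extensions of `ℚ`. -/
def pullBasis : LevelCoh28.LevelBasis G := ⟨pullSets r, isLevelBasis_pullSets r⟩

/-- The level basis of `G` pulled back from the extensions unramified outside `S`. -/
def pullBasisS (S : Finset Nat.Primes) : LevelCoh28.LevelBasis G :=
  ⟨pullSetsS r S, isLevelBasis_pullSetsS r S⟩

theorem isLevel₁_pullSets_iff {X : Type*} (f : G → X) :
    LevelCoh28.IsLevel₁ (pullSets r) f ↔ IsLevelConstant₁ r f := by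
  constructor
  · rintro ⟨_, ⟨F, hF, rfl⟩, h⟩
    exact ⟨F, hF, fun g s hs => h g s hs⟩
  · rintro ⟨F, hF, h⟩
    exact ⟨_, ⟨F, hF, rfl⟩, fun g s hs => h g s hs⟩

theorem isLevel₂_pullSets_iff {X : Type*} (f : G × G → X) :
    LevelCoh28.IsLevel₂ (pullSets r) f ↔ IsLevelConstant₂ r f := by
  constructor
  · rintro ⟨_, ⟨F, hF, rfl⟩, h⟩
    exact ⟨F, hF, fun g g' s s' hs hs' => h g g' s hs s' hs'⟩
  · rintro ⟨F, hF, h⟩
    exact ⟨_, ⟨F, hF, rfl⟩, fun g g' s hs s' hs' => h g g' s s' hs hs'⟩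

end Pull

/-! ### Comparison of the cochain submodules and of `H²` -/

section Quot

/-- The linear equivalence between two quotients `Z ⧸ B` of the same ambient module when the
cocycle and coboundary submodules agree. -/
noncomputable def quotEquivOfEq {k V : Type} [CommRing k] [AddCommGroup V] [Module k V]
    {Z Z' B B' : Submodule k V} (hZ : Z = Z') (hB : B = B') :
    (↥Z ⧸ B.comap Z.subtype) ≃ₗ[k] (↥Z' ⧸ B'.comap Z'.subtype) :=
  Submodule.Quotient.equiv _ _ (LinearEquiv.ofEq Z Z' hZ) (by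
    subst hZ; subst hB
    ext x
    simp)

@[simp] theorem quotEquivOfEq_mk {k V : Type} [CommRing k] [AddCommGroup V] [Module k V]
    {Z Z' B B' : Submodule k V} (hZ : Z = Z') (hB : B = B') (c : ↥Z) :
    quotEquivOfEq hZ hB (Submodule.Quotient.mk c) =
      Submodule.Quotient.mk ⟨(c : V), hZ ▸ c.2⟩ := by
  subst hZ; subst hB
  rfl

end Quot

section GlobalModules

variable {k : Type} [CommRing k] (S : Finset Nat.Primes) (M : Rep k Γ)

theorem levelCochainsS₁_eq :
    levelCochainsS₁ S M = LevelCoh28.levelCochains₁ (globalBasis S) M := by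
  ext f
  exact (isLevel₁_globalSets_iff S f).symm

theorem levelCochainsS₂_eq :
    levelCochainsS₂ S M = LevelCoh28.levelCochains₂ (globalBasis S) M := by
  ext f
  exact (isLevel₂_globalSets_iff S f).symm

theorem levelCocyclesS₂_eq : levelCocyclesS₂ S M = LevelCoh28.Z2 (globalBasis S) M := by
  rw [levelCocyclesS₂, LevelCoh28.Z2, levelCochainsS₂_eq]

theorem levelCoboundariesS₂_eq : levelCoboundariesS₂ S M = LevelCoh28.B2 (globalBasis S) M := by
  rw [levelCoboundariesS₂, LevelCoh28.B2, levelCochainsS₁_eq]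

/-- The prelude's `continuousH2S S M` is `H²` of the level group `(Γ, globalBasis S)`. -/
noncomputable def continuousH2SEquiv :
    continuousH2S S M ≃ₗ[k] LevelCoh28.H2 (globalBasis S) M :=
  quotEquivOfEq (levelCocyclesS₂_eq S M) (levelCoboundariesS₂_eq S M)

theorem continuousH2SEquiv_mk (c : ↥(levelCocyclesS₂ S M)) :
    continuousH2SEquiv S M (continuousH2Sπ S M c) =
      LevelCoh28.H2mk (globalBasis S) M ⟨(c : Γ × Γ → M), levelCocyclesS₂_eq S M ▸ c.2⟩ :=
  quotEquivOfEq_mk _ _ c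

end GlobalModules

section PullModules

variable {k : Type} [CommRing k] {G : Type} [Group G] (r : G →* Γ) (M : Rep k G)

theorem levelCochains₁_eq :
    groupCohomology.levelCochains₁ r M = LevelCoh28.levelCochains₁ (pullBasis r) M := by
  ext f
  exact (isLevel₁_pullSets_iff r f).symm

theorem levelCochains₂_eq :
    groupCohomology.levelCochains₂ r M = LevelCoh28.levelCochains₂ (pullBasis r) M := by
  ext f
  exact (isLevel₂_pullSets_iff r f).symm

theorem levelCocycles₂_eq :
    groupCohomology.levelCocycles₂ r M = LevelCoh28.Z2 (pullBasis r) M := by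
  rw [groupCohomology.levelCocycles₂, LevelCoh28.Z2, levelCochains₂_eq]

theorem levelCoboundaries₂_eq :
    groupCohomology.levelCoboundaries₂ r M = LevelCoh28.B2 (pullBasis r) M := by
  rw [groupCohomology.levelCoboundaries₂, LevelCoh28.B2, levelCochains₁_eq]

/-- The prelude's `continuousH2 r M` is `H²` of the level group `(G, pullBasis r)`. -/
noncomputable def continuousH2Equiv :
    continuousH2 r M ≃ₗ[k] LevelCoh28.H2 (pullBasis r) M :=
  quotEquivOfEq (levelCocycles₂_eq r M) (levelCoboundaries₂_eq r M)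

theorem continuousH2Equiv_mk (c : ↥(groupCohomology.levelCocycles₂ r M)) :
    continuousH2Equiv r M (continuousH2π r M c) =
      LevelCoh28.H2mk (pullBasis r) M ⟨(c : G × G → M), levelCocycles₂_eq r M ▸ c.2⟩ :=
  quotEquivOfEq_mk _ _ c

end PullModules

/-! ### `H¹`: level classes inside the abstract `H¹` -/

section H1

variable {k G : Type} [CommRing k] [Group G] (𝓑 : LevelCoh28.LevelBasis G) (A : Rep k G)

/-- Level 1-cocycles are 1-cocycles. -/
def Z1ToCocycles : ↥(LevelCoh28.Z1 𝓑 A) →ₗ[k] ↥(cocycles₁ A) :=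
  Submodule.inclusion inf_le_left

@[simp] theorem coe_Z1ToCocycles (c : ↥(LevelCoh28.Z1 𝓑 A)) :
    ((Z1ToCocycles 𝓑 A c : cocycles₁ A) : G → A) = (c : G → A) := rfl

/-- The map from level `H¹` to the abstract `H¹` of Mathlib. -/
noncomputable def toH1 : LevelCoh28.H1 𝓑 A →ₗ[k] H1 A :=
  Submodule.liftQ _ ((H1π A).hom ∘ₗ Z1ToCocycles 𝓑 A) (by
    intro c hc
    rw [LinearMap.mem_ker, LinearMap.comp_apply]
    exact (H1π_eq_zero_iff _).2 hc)

@[simp] theorem toH1_mk (c : ↥(LevelCoh28.Z1 𝓑 A)) :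
    toH1 𝓑 A (LevelCoh28.H1mk 𝓑 A c) = (H1π A).hom (Z1ToCocycles 𝓑 A c) := rfl

theorem toH1_injective : Function.Injective (toH1 𝓑 A) := by
  rw [← LinearMap.ker_eq_bot, LinearMap.ker_eq_bot']
  intro x hx
  obtain ⟨c, rfl⟩ := LevelCoh28.H1mk_surjective 𝓑 A x
  rw [toH1_mk] at hx
  exact (LevelCoh28.H1mk_eq_zero_iff 𝓑 A c).2 ((H1π_eq_zero_iff _).1 hx)

theorem mem_range_toH1_iff (x : H1 A) :
    x ∈ LinearMap.range (toH1 𝓑 A) ↔
      ∃ c : cocycles₁ A, LevelCoh28.IsLevel₁ 𝓑.sets (c : G → A) ∧ (H1π A).hom c = x := by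
  constructor
  · rintro ⟨y, rfl⟩
    obtain ⟨c, rfl⟩ := LevelCoh28.H1mk_surjective 𝓑 A y
    exact ⟨Z1ToCocycles 𝓑 A c, c.2.2, rfl⟩
  · rintro ⟨c, hc, rfl⟩
    exact ⟨LevelCoh28.H1mk 𝓑 A ⟨(c : G → A), c.2, hc⟩, rfl⟩

end H1

section H1Global

variable {k : Type} [CommRing k] (S : Finset Nat.Primes) (A : Rep k Γ)

/-- `continuousH1S S A` is the image of the level `H¹` of `(Γ, globalBasis S)`. -/
theorem range_toH1_globalBasis :
    LinearMap.range (toH1 (globalBasis S) A) = continuousH1S S A := by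
  ext x
  rw [mem_range_toH1_iff, mem_continuousH1S_iff]
  exact exists_congr fun c => and_congr_left fun _ => isLevel₁_globalSets_iff S _

/-- The level `H¹` of `(Γ, globalBasis S)` is the prelude's `continuousH1S S A`. -/
noncomputable def H1Equiv : LevelCoh28.H1 (globalBasis S) A ≃ₗ[k] ↥(continuousH1S S A) :=
  (LinearEquiv.ofInjective _ (toH1_injective (globalBasis S) A)).trans
    (LinearEquiv.ofEq _ _ (range_toH1_globalBasis S A))

@[simp] theorem coe_H1Equiv (x : LevelCoh28.H1 (globalBasis S) A) :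
    ((H1Equiv S A x : continuousH1S S A) : H1 A) = toH1 (globalBasis S) A x := rfl

end H1Global

section H1Res

variable {k : Type} [CommRing k] {G : Type} [Group G] (r : G →* Γ) (A : Rep k Γ)

/-- Restriction of a 1-cocycle along `r`. -/
theorem comp_mem_cocycles₁ {c : Γ → A} (hc : c ∈ cocycles₁ A) :
    c ∘ r ∈ cocycles₁ (Rep.res r A) := by
  rw [mem_cocycles₁_iff] at hc ⊢
  intro g h
  simp only [Function.comp_apply, map_mul, hc]
  rfl

/-- The restriction to `G` of the class of a 1-cocycle `c` of `Γ` vanishes in the ABSTRACT `H¹`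
iff `c ∘ r` is a coboundary (automatically a level one for discrete modules). -/
theorem map_H1π_eq_zero_iff (c : cocycles₁ A) :
    (groupCohomology.map r (𝟙 (Rep.res r A)) 1).hom ((H1π A).hom c) = 0 ↔
      (c : Γ → A) ∘ r ∈ coboundaries₁ (Rep.res r A) := by
  have h1 : (groupCohomology.map r (𝟙 (Rep.res r A)) 1).hom ((H1π A).hom c)
      = (H1π (Rep.res r A)).hom (mapCocycles₁ r (𝟙 (Rep.res r A)) c) :=
    H1π_comp_map_apply r (𝟙 (Rep.res r A)) c
  rw [h1]
  have h2 := H1π_eq_zero_iff (mapCocycles₁ r (𝟙 (Rep.res r A)) c)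
  rw [show (H1π (Rep.res r A)).hom (mapCocycles₁ r (𝟙 (Rep.res r A)) c) =
    H1π (Rep.res r A) (mapCocycles₁ r (𝟙 (Rep.res r A)) c) from rfl, h2]
  have h3 : (⇑(mapCocycles₁ r (𝟙 (Rep.res r A)) c) : G → _) = (c : Γ → A) ∘ r := by
    rw [coe_mapCocycles₁]
    rfl
  rw [h3]

end H1Res

/-! ### Discreteness of the modules of S55 -/

section Discrete

variable {k : Type} [Field k] (S : Finset Nat.Primes) (M : Rep k Γ) [FiniteDimensional k M]

/-- A finite-dimensional smooth representation is trivial on `Gal(ℚ̄/F)` for a finite `F`. -/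
theorem exists_finite_forall_ρ_eq_one
    (hsm : ∀ m : M, ∃ F : IntermediateField ℚ Qbar, FiniteDimensional ℚ F ∧
      ∀ s ∈ F.fixingSubgroup, M.ρ s m = m) :
    ∃ F : IntermediateField ℚ Qbar, FiniteDimensional ℚ F ∧ ∀ s ∈ F.fixingSubgroup, M.ρ s = 1 := by
  classical
  let b := Module.finBasis k M
  choose F hF hfix using fun i => hsm (b i)
  refine ⟨⨆ i, F i, IntermediateField.finiteDimensional_iSup_of_finite, fun s hs => ?_⟩
  apply b.ext
  intro i
  rw [Module.End.one_apply]
  exact hfix i s (IntermediateField.fixingSubgroup_antitone (le_iSup F i) hs)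

/-- **The hypotheses of S55 make `M` a discrete `G_S`-module**, uniformly: there is a finite
Galois `L/ℚ`, unramified outside `S`, such that `Gal(ℚ̄/L)` acts trivially on `M`. -/
theorem exists_isUnramifiedOutside_forall_ρ_eq_one
    (hsm : ∀ m : M, ∃ F : IntermediateField ℚ Qbar, FiniteDimensional ℚ F ∧
      ∀ s ∈ F.fixingSubgroup, M.ρ s m = m)
    (hMur : ∀ q : Nat.Primes, q ∉ S → ∀ A : ValuationSubring Qbar,
      A.LiesOverPrime (q : ℕ) → ∀ g ∈ A.inertiaSubgroupIn ℚ, M.ρ g = 1) :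
    ∃ L : IntermediateField ℚ Qbar, L.IsUnramifiedOutside S ∧ IsGalois ℚ L ∧
      ∀ s ∈ L.fixingSubgroup, M.ρ s = 1 := by
  obtain ⟨F, hFfin, hF⟩ := exists_finite_forall_ρ_eq_one M hsm
  -- the kernel of `ρ` is an open, hence closed, subgroup
  let N : Subgroup Γ := MonoidHom.ker M.ρ
  have hFN : F.fixingSubgroup ≤ N := fun s hs => hF s hs
  have hNopen : IsOpen (N : Set Γ) := Subgroup.isOpen_mono hFN F.fixingSubgroup_isOpen
  have hNclosed : IsClosed (N : Set Γ) := Subgroup.isClosed_of_isOpen N hNopen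
  let Nc : ClosedSubgroup Γ := ⟨N, hNclosed⟩
  have hfix : (IntermediateField.fixedField N).fixingSubgroup = N :=
    InfiniteGalois.fixingSubgroup_fixedField Nc
  have hle : IntermediateField.fixedField N ≤ F := by
    have h1 := IntermediateField.fixedField_antitone hFN
    rwa [InfiniteGalois.fixedField_fixingSubgroup] at h1
  have hL : (IntermediateField.fixedField N).IsUnramifiedOutside S := by
    refine ⟨?_, fun q hq A hA g hg => ?_⟩
    · exact FiniteDimensional.of_injective (IntermediateField.inclusion hle).toLinearMap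
        (IntermediateField.inclusion_injective hle)
    · rw [hfix]
      exact hMur q hq A hA g hg
  obtain ⟨L, hNL, hLG, hLS⟩ := UnramBridge13.exists_isGalois_isUnramifiedOutside hL
  refine ⟨L, hLS, hLG, fun s hs => ?_⟩
  have : s ∈ (IntermediateField.fixedField N).fixingSubgroup :=
    IntermediateField.fixingSubgroup_antitone hNL hs
  rw [hfix] at this
  exact this

/-- The modules of S55 are discrete for the global level basis. -/
theorem isDiscrete_globalSets
    (hsm : ∀ m : M, ∃ F : IntermediateField ℚ Qbar, FiniteDimensional ℚ F ∧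
      ∀ s ∈ F.fixingSubgroup, M.ρ s m = m)
    (hMur : ∀ q : Nat.Primes, q ∉ S → ∀ A : ValuationSubring Qbar,
      A.LiesOverPrime (q : ℕ) → ∀ g ∈ A.inertiaSubgroupIn ℚ, M.ρ g = 1) :
    LevelCoh28.IsDiscrete (globalSets S) M := by
  obtain ⟨L, hLS, -, hL⟩ := exists_isUnramifiedOutside_forall_ρ_eq_one S M hsm hMur
  intro m
  refine ⟨_, ⟨L, hLS, rfl⟩, fun s hs => ?_⟩
  rw [hL s hs, Module.End.one_apply]

/-- ... and their restrictions along any `r : G →* Γ` are discrete for the pulled-back bases. -/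
theorem isDiscrete_pullSetsS {G : Type} [Group G] (r : G →* Γ)
    (hsm : ∀ m : M, ∃ F : IntermediateField ℚ Qbar, FiniteDimensional ℚ F ∧
      ∀ s ∈ F.fixingSubgroup, M.ρ s m = m)
    (hMur : ∀ q : Nat.Primes, q ∉ S → ∀ A : ValuationSubring Qbar,
      A.LiesOverPrime (q : ℕ) → ∀ g ∈ A.inertiaSubgroupIn ℚ, M.ρ g = 1) :
    LevelCoh28.IsDiscrete (pullSetsS r S) (Rep.res r M) := by
  obtain ⟨L, hLS, -, hL⟩ := exists_isUnramifiedOutside_forall_ρ_eq_one S M hsm hMur
  intro m
  refine ⟨_, ⟨L, hLS, rfl⟩, fun s hs => ?_⟩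
  change M.ρ (r s) m = m
  rw [hL (r s) hs, Module.End.one_apply]

theorem isDiscrete_pullSets {G : Type} [Group G] (r : G →* Γ)
    (hsm : ∀ m : M, ∃ F : IntermediateField ℚ Qbar, FiniteDimensional ℚ F ∧
      ∀ s ∈ F.fixingSubgroup, M.ρ s m = m) :
    LevelCoh28.IsDiscrete (pullSets r) (Rep.res r M) := by
  obtain ⟨F, hFfin, hF⟩ := exists_finite_forall_ρ_eq_one M hsm
  intro m
  refine ⟨_, ⟨F, hFfin, rfl⟩, fun s hs => ?_⟩
  change M.ρ (r s) m = m
  rw [hF (r s) hs, Module.End.one_apply]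

end Discrete

/-! ### The local bases: members of `pullSets (localGaloisToGlobal q)` are the fixing subgroups of
the finite extensions `ℚ_q(ι F)`, which are cofinal among all finite extensions of `ℚ_q`. -/

section Local

variable (q : ℕ) [Fact q.Prime]

theorem comap_fixingSubgroup_eq (F : IntermediateField ℚ Qbar) :
    F.fixingSubgroup.comap (localGaloisToGlobal q) = (LocInj13.localField q F).fixingSubgroup := by
  ext τ
  rw [Subgroup.mem_comap, LocInj13.mem_fixingSubgroup_localField_iff]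

/-- All open subgroups of `Γ_q` (fixing subgroups of finite extensions of `ℚ_q`). -/
def localSets : Set (Subgroup (PadicAlgCl q ≃ₐ[ℚ_[q]] PadicAlgCl q)) :=
  {U | ∃ E : IntermediateField ℚ_[q] (PadicAlgCl q), FiniteDimensional ℚ_[q] E ∧
    U = E.fixingSubgroup}

theorem pullSets_subset_localSets : pullSets (localGaloisToGlobal q) ⊆ localSets q := by
  rintro _ ⟨F, hF, rfl⟩
  exact ⟨LocInj13.localField q F, inferInstance, comap_fixingSubgroup_eq q F⟩

theorem exists_le_of_mem_localSets {U : Subgroup (PadicAlgCl q ≃ₐ[ℚ_[q]] PadicAlgCl q)}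
    (hU : U ∈ localSets q) : ∃ V ∈ pullSets (localGaloisToGlobal q), V ≤ U := by
  obtain ⟨E, hE, rfl⟩ := hU
  obtain ⟨F, hF, hEF⟩ := LocInj13.exists_le_localField q E
  refine ⟨_, ⟨F, hF, rfl⟩, ?_⟩
  rw [comap_fixingSubgroup_eq]
  exact IntermediateField.fixingSubgroup_antitone hEF

theorem isLevel₁_localSets_iff {X : Type*} (f : (PadicAlgCl q ≃ₐ[ℚ_[q]] PadicAlgCl q) → X) :
    LevelCoh28.IsLevel₁ (localSets q) f ↔
      LevelCoh28.IsLevel₁ (pullSets (localGaloisToGlobal q)) f := by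
  constructor
  · rintro ⟨U, hU, h⟩
    obtain ⟨V, hV, hVU⟩ := exists_le_of_mem_localSets q hU
    exact ⟨V, hV, h.mono hVU⟩
  · rintro ⟨U, hU, h⟩
    exact ⟨U, pullSets_subset_localSets q hU, h⟩

theorem isLevel₂_localSets_iff {X : Type*}
    (f : (PadicAlgCl q ≃ₐ[ℚ_[q]] PadicAlgCl q) × (PadicAlgCl q ≃ₐ[ℚ_[q]] PadicAlgCl q) → X) :
    LevelCoh28.IsLevel₂ (localSets q) f ↔
      LevelCoh28.IsLevel₂ (pullSets (localGaloisToGlobal q)) f := by
  constructor
  · rintro ⟨U, hU, h⟩
    obtain ⟨V, hV, hVU⟩ := exists_le_of_mem_localSets q hU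
    exact ⟨V, hV, h.mono hVU⟩
  · rintro ⟨U, hU, h⟩
    exact ⟨U, pullSets_subset_localSets q hU, h⟩

end Local

end Fermat.Agent.PT.BR.LevelBridge13
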