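/-
Program F (S55), chapter BR, helper13.

The instance of `PRO/InfLevel13` (inflation along a closed normal subgroup) for the local Galois
group `Γ_q = Gal(ℚ̄_q/ℚ_q)`:

* `𝒰  = (levelLoc q).sets`     (all open subgroups, GLUE/Objects21),
* `𝒰' = (levelLocS q S).sets`  (the levels coming from `G_S`),
* `N  = Nloc q S = Gal(ℚ̄_q/ℚ_q·ι(ℚ_S))` (preimage of `Gal(ℚ̄/ℚ_S)` under `Γ_q → Γ`),
* `W  = unitsLoc q = ℚ̄_qˣ`.

Results: `isInfData_loc : IsInfData 𝒰 𝒰' N`, `Nloc` is normal, and `h90_unitsLoc : H90 𝒰 N W`.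
-/
import Mathlib
import Fermat.Agent.PT.GLUE.Objects21
import Fermat.Agent.PT.PRO.InfLevel13
import Fermat.Agent.PT.PRO.LevelCompare13
import Fermat.Agent.PT.BR.InfGalois13
import Fermat.Agent.PT.BR.LevelBridge13

set_option autoImplicit false

namespace Fermat.Agent.PT.BR.InfLocal13

open Fermat.Agent.PT.PRO Fermat.Agent.PT.GLUE.Objects21 Fermat.Agent.PT.PRO.InfLevel13
open Fermat.Agent.PT.BR.LocInj13
open scoped IntermediateField

local notation "Qbar" => AlgebraicClosure ℚ
local notation "Γ" => (AlgebraicClosure ℚ ≃ₐ[ℚ] AlgebraicClosure ℚ)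

variable (S : Finset Nat.Primes)

/-! ### The field `ℚ_S` -/

/-- The maximal extension `ℚ_S` of `ℚ` unramified outside `S`, inside `ℚ̄`. -/
def QS : IntermediateField ℚ Qbar where
  carrier := {x | InQS S x}
  mul_mem' hx hy := hx.mul hy
  one_mem' := inQS_one
  add_mem' := by
    rintro x y ⟨F, hF, hxF⟩ ⟨F', hF', hyF'⟩
    exact ⟨F ⊔ F', hF.sup hF', add_mem ((le_sup_left : F ≤ F ⊔ F') hxF)
      ((le_sup_right : F' ≤ F ⊔ F') hyF')⟩
  zero_mem' := ⟨⊥, IntermediateField.isUnramifiedOutside_bot S, zero_mem _⟩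
  algebraMap_mem' r := ⟨⊥, IntermediateField.isUnramifiedOutside_bot S, algebraMap_mem _ r⟩
  inv_mem' _ hx := hx.inv

theorem mem_QS_iff (x : Qbar) : x ∈ QS S ↔ InQS S x := Iff.rfl

theorem le_QS {F : IntermediateField ℚ Qbar} (hF : F.IsUnramifiedOutside S) : F ≤ QS S :=
  fun _ hx => ⟨F, hF, hx⟩

theorem normal_fixingSubgroup_QS : (QS S).fixingSubgroup.Normal := by
  refine ⟨fun σ hσ g => ?_⟩
  rw [IntermediateField.mem_fixingSubgroup_iff] at hσ ⊢
  intro x hx
  have hx' : g⁻¹ x ∈ QS S := InQS.map hx g⁻¹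
  have := hσ _ hx'
  rw [AlgEquiv.mul_apply, AlgEquiv.mul_apply, this, ← AlgEquiv.mul_apply, mul_inv_cancel,
    AlgEquiv.one_apply]

/-! ### The local objects -/

variable (q : ℕ) [Fact q.Prime]

local notation "Γq" => (PadicAlgCl q ≃ₐ[ℚ_[q]] PadicAlgCl q)

/-- The closed normal subgroup `Gal(ℚ̄_q/ℚ_q·ι(ℚ_S))` of `Γ_q`. -/
noncomputable def Nloc : Subgroup Γq := (QS S).fixingSubgroup.comap (localGaloisToGlobal q)

instance normal_Nloc : (Nloc S q).Normal :=
  (normal_fixingSubgroup_QS S).comap _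

theorem Nloc_eq : Nloc S q = (localField q (QS S)).fixingSubgroup :=
  LevelBridge13.comap_fixingSubgroup_eq q (QS S)

/-- Finitely many elements of local fields `ℚ_q(ι F)`, `F` unramified outside `S`, lie in a
common one. -/
theorem exists_isUnramifiedOutside_finset (t : Finset (PadicAlgCl q))
    (ht : ∀ y ∈ t, ∃ F : IntermediateField ℚ Qbar, F.IsUnramifiedOutside S ∧ y ∈ localField q F) :
    ∃ F : IntermediateField ℚ Qbar, F.IsUnramifiedOutside S ∧ ∀ y ∈ t, y ∈ localField q F := by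
  classical
  induction t using Finset.induction_on with
  | empty =>
    exact ⟨⊥, IntermediateField.isUnramifiedOutside_bot S, fun y hy => absurd hy (Finset.notMem_empty y)⟩
  | insert a t _ ih =>
    obtain ⟨F, hF, hFt⟩ := ih (fun y hy => ht y (Finset.mem_insert_of_mem hy))
    obtain ⟨F', hF', ha⟩ := ht a (Finset.mem_insert_self a t)
    refine ⟨F ⊔ F', hF.sup hF', fun y hy => ?_⟩
    rcases Finset.mem_insert.1 hy with rfl | hy
    · exact localField_mono q (le_sup_right : F' ≤ F ⊔ F') ha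
    · exact localField_mono q (le_sup_left : F ≤ F ⊔ F') (hFt y hy)

/-- An element of `ℚ̄_q` fixed by `Nloc` lies in `ℚ_q(ι F)` for some `F` unramified outside `S`. -/
theorem exists_mem_localField_of_fixed (x : PadicAlgCl q) (hx : ∀ n ∈ Nloc S q, n x = x) :
    ∃ F : IntermediateField ℚ Qbar, F.IsUnramifiedOutside S ∧ x ∈ localField q F := by
  classical
  have h1 : x ∈ localField q (QS S) := by
    rw [← InfiniteGalois.fixedField_fixingSubgroup (localField q (QS S)),
      IntermediateField.mem_fixedField_iff, ← Nloc_eq]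
    exact hx
  obtain ⟨T, hT, hxT⟩ := IntermediateField.exists_finset_of_mem_adjoin h1
  obtain ⟨F, hF, hFT⟩ := exists_isUnramifiedOutside_finset S q T (by
    intro y hy
    obtain ⟨z, ⟨F, hF, hzF⟩, rfl⟩ := hT hy
    exact ⟨F, hF, padicEmbedding_mem_localField q hzF⟩)
  refine ⟨F, hF, ?_⟩
  have hle : IntermediateField.adjoin ℚ_[q] (T : Set (PadicAlgCl q)) ≤ localField q F :=
    IntermediateField.adjoin_le_iff.2 fun y hy => hFT y hy
  exact hle hxT

/-- **The inflation data for `Γ_q`**. -/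
theorem isInfData_loc : IsInfData (levelLoc q).sets (levelLocS q S).sets (Nloc S q) where
  le := by
    rintro _ ⟨U, hU, rfl⟩
    exact ⟨_, ⟨U, levelSetS_subset_levelSetAll S hU, rfl⟩, le_rfl⟩
  N_le := by
    rintro _ ⟨_, ⟨F, hF, rfl⟩, rfl⟩
    exact Subgroup.comap_mono (IntermediateField.fixingSubgroup_antitone (le_QS S hF))
  cpt := by
    classical
    rintro _ ⟨_, ⟨F, hF, rfl⟩, rfl⟩
    have hFfin : FiniteDimensional ℚ F := hF
    change ∃ V' ∈ (levelLocS q S).sets, V' ≤ F.fixingSubgroup.comap (localGaloisToGlobal q) ⊔ Nloc S q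
    rw [LevelBridge13.comap_fixingSubgroup_eq]
    -- the `N`-fixed elements of `E = ℚ_q(ι F)` form a finite extension `E₀`
    set E := localField q F with hE
    let E₀ : IntermediateField ℚ_[q] (PadicAlgCl q) :=
      E ⊓ IntermediateField.fixedField (Nloc S q)
    have hE₀E : E₀ ≤ E := inf_le_left
    have hE₀ : FiniteDimensional ℚ_[q] E₀ :=
      FiniteDimensional.of_injective (IntermediateField.inclusion hE₀E).toLinearMap
        (IntermediateField.inclusion_injective hE₀E)
    obtain ⟨t, ht⟩ := fg_of_finiteDimensional E₀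
    obtain ⟨F', hF', hF't⟩ := exists_isUnramifiedOutside_finset S q t (by
      intro y hy
      have hy0 : y ∈ E₀ := by
        rw [← ht]
        exact IntermediateField.subset_adjoin _ _ hy
      exact exists_mem_localField_of_fixed S q y (fun n hn =>
        (IntermediateField.mem_fixedField_iff _ _).1 hy0.2 n hn))
    have hE₀le : E₀ ≤ localField q F' := by
      rw [← ht]
      exact IntermediateField.adjoin_le_iff.2 fun y hy => hF't y hy
    refine ⟨_, ⟨_, ⟨F', hF', rfl⟩, rfl⟩, ?_⟩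
    rw [LevelBridge13.comap_fixingSubgroup_eq]
    apply InfGalois13.fixingSubgroup_le_sup
    intro x hxE hxN
    exact hE₀le ⟨hxE, (IntermediateField.mem_fixedField_iff _ _).2 hxN⟩

/-! ### Hilbert 90 -/

theorem unitsLoc_ρ_apply (g : Γq) (a : unitsLoc q) :
    (unitsLoc q).ρ g a =
      Additive.ofMul (g • Additive.toMul (α := (PadicAlgCl q)ˣ) a) := rfl

/-- **Hilbert 90 for `(Nloc, ℚ̄_qˣ)`** in the form required by `InfLevel13`. -/
theorem h90_unitsLoc : H90 (levelLoc q).sets (Nloc S q) (unitsLoc q).ρ := by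
  intro c hc hcoc
  have h𝒰 : HyperLevel25.IsLevelBasis (levelLoc q).sets :=
    LevelCompare13.isLevelBasis_iff.1 (levelLoc q).isBasis
  have hρ : HyperLevel25.IsDiscrete (levelLoc q).sets (unitsLoc q).ρ := isDiscrete_unitsLoc q
  obtain ⟨W, hW, -, hinv, hfix⟩ := h𝒰.exists_normal_fixing hρ hc
  obtain ⟨_, ⟨F, hF, rfl⟩, rfl⟩ := hW
  have hFfin : FiniteDimensional ℚ F := hF
  rw [LevelBridge13.comap_fixingSubgroup_eq] at hinv hfix
  let cm : Γq → (PadicAlgCl q)ˣ := fun g => Additive.toMul (α := (PadicAlgCl q)ˣ) (c g)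
  obtain ⟨β, hβ⟩ := InfGalois13.hilbert90_level (Nloc S q) (localField q F) cm
    (fun g s hs => congrArg (Additive.toMul (α := (PadicAlgCl q)ˣ)) (hinv g s hs))
    (fun g => by
      rw [← InfiniteGalois.fixedField_fixingSubgroup (localField q F),
        IntermediateField.mem_fixedField_iff]
      intro s hs
      have := congrArg (fun a => ((Additive.toMul (α := (PadicAlgCl q)ˣ) a : (PadicAlgCl q)ˣ) :
        PadicAlgCl q)) (hfix g s hs)
      exact this)
    (fun n hn n' hn' => by
      have := congrArg (Additive.toMul (α := (PadicAlgCl q)ˣ)) (hcoc n hn n' hn')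
      exact this)
  refine ⟨Additive.ofMul β, fun n hn => ?_⟩
  have := hβ n hn
  apply Additive.toMul.injective
  exact this

end Fermat.Agent.PT.BR.InfLocal13
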