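/-
Program F (S55), chapter BR: the archimedean local conditions are vacuous for `p` odd.

* `subsingleton_H1_of_isUnit_card`, `subsingleton_continuousH2_of_isUnit_card`:
  for a finite group whose order is invertible in the coefficient ring, `H¹` and the
  level-constant `H²` (w.r.t. any `r : G →* Gal(ℚ̄/ℚ)`) vanish (explicit averaging).
* `archimedeanDecomposition` is finite of order dividing `2`, hence for a field `K` with `2 ≠ 0`
  both archimedean local groups in the definition of `sha₁`, `sha₂` vanish.
* `mem_sha₁_iff`, `mem_sha₂_iff`: the Tate–Shafarevich groups only see the places `q ∈ S`.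
-/
import Mathlib
import Fermat.Prelude.Def_GroupCohomology_ContinuousUnramified

set_option autoImplicit false

open CategoryTheory groupCohomology ExtCitation

namespace Fermat.Agent.PT.BR.ArchVanish13

universe u

section general

variable {k G : Type u} [CommRing k] [Group G] [Fintype G] (M : Rep.{u, u, u} k G)

/-- Every 1-cocycle of a finite group whose order is invertible is a coboundary. -/
theorem cocycles₁_mem_coboundaries₁ (hG : IsUnit (Fintype.card G : k)) (f : cocycles₁ M) :
    ⇑f ∈ coboundaries₁ M := by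
  obtain ⟨u, hu⟩ := hG
  have hcoc := (mem_cocycles₁_iff (A := M) f).1 f.2
  set X : M := ∑ h : G, f h with hX
  -- `card • f g = X - g • X`
  have key : ∀ g : G, (Fintype.card G : k) • f g = X - M.ρ g X := by
    intro g
    have h1 : ∑ h : G, f (g * h) = X :=
      Fintype.sum_equiv (Equiv.mulLeft g) _ _ (fun _ => rfl)
    have h2 : ∑ h : G, f (g * h) = M.ρ g X + (Fintype.card G : k) • f g := by
      simp_rw [hcoc g, Finset.sum_add_distrib, hX, map_sum]
      simp [Finset.sum_const, Finset.card_univ, Nat.cast_smul_eq_nsmul]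
    rw [h1] at h2
    rw [eq_sub_iff_add_eq, add_comm]; exact h2.symm
  refine ⟨-((↑u⁻¹ : k) • X), ?_⟩
  funext g
  rw [d₀₁_hom_apply]
  have : f g = (↑u⁻¹ : k) • ((Fintype.card G : k) • f g) := by
    rw [smul_smul, ← hu, Units.inv_mul, one_smul]
  rw [this, key g]
  simp only [map_neg, map_smul, smul_sub]
  abel

theorem subsingleton_H1_of_isUnit_card (hG : IsUnit (Fintype.card G : k)) :
    Subsingleton (H1 M) := by
  refine ⟨fun x y => ?_⟩
  have h0 : ∀ z : H1 M, z = 0 := by
    intro z
    induction z using H1_induction_on with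
    | h c => exact (H1π_eq_zero_iff c).2 (cocycles₁_mem_coboundaries₁ M hG c)
  rw [h0 x, h0 y]

variable (r : G →* (AlgebraicClosure ℚ ≃ₐ[ℚ] AlgebraicClosure ℚ))

/-- Every level-constant 2-cocycle of a finite group whose order is invertible is the coboundary
of a level-constant 1-cochain (of the same level). -/
theorem levelCocycles₂_le_levelCoboundaries₂ (hG : IsUnit (Fintype.card G : k)) :
    levelCocycles₂ r M ≤ levelCoboundaries₂ r M := by
  rintro f ⟨hf, F, hF, hlev⟩
  obtain ⟨u, hu⟩ := hG
  have hcoc := (mem_cocycles₂_iff (A := M) f).1 hf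
  set x : G → M := fun g => ∑ j : G, f (g, j) with hx
  have key : ∀ g h : G, (Fintype.card G : k) • f (g, h) = M.ρ g (x h) - x (g * h) + x g := by
    intro g h
    have h1 : ∑ j : G, f (g, h * j) = x g :=
      Fintype.sum_equiv (Equiv.mulLeft h) _ _ (fun _ => rfl)
    have h2 : ∑ j : G, (f (g * h, j) + f (g, h)) = ∑ j : G, (M.ρ g (f (h, j)) + f (g, h * j)) :=
      Finset.sum_congr rfl fun j _ => hcoc g h j
    rw [Finset.sum_add_distrib, Finset.sum_add_distrib, h1, ← map_sum] at h2
    simp only [Finset.sum_const, Finset.card_univ] at h2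
    rw [← Nat.cast_smul_eq_nsmul k] at h2
    rw [sub_add_eq_add_sub, eq_sub_iff_add_eq, add_comm]
    exact h2
  refine (mem_levelCoboundaries₂_iff r M f).2 ⟨fun g => (↑u⁻¹ : k) • x g, ⟨F, hF, ?_⟩, ?_⟩
  · intro g s hs
    have : x (g * s) = x g := by
      simp only [hx]
      refine Finset.sum_congr rfl fun j _ => ?_
      simpa using hlev g j s 1 hs (by simp)
    simp only [this]
  · funext ⟨g, h⟩
    rw [d₁₂_hom_apply]
    have : f (g, h) = (↑u⁻¹ : k) • ((Fintype.card G : k) • f (g, h)) := by
      rw [smul_smul, ← hu, Units.inv_mul, one_smul]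
    rw [this, key g h]
    simp [smul_sub, smul_add]

theorem subsingleton_continuousH2_of_isUnit_card (hG : IsUnit (Fintype.card G : k)) :
    Subsingleton (continuousH2 r M) := by
  refine ⟨fun x y => ?_⟩
  have h0 : ∀ z : continuousH2 r M, z = 0 := by
    intro z
    obtain ⟨c, rfl⟩ := Submodule.Quotient.mk_surjective _ z
    exact (continuousH2π_eq_zero_iff r M c).2 (levelCocycles₂_le_levelCoboundaries₂ M r hG c.2)
  rw [h0 x, h0 y]

end general

section finite

variable {k G : Type u} [CommRing k] [Group G] [Finite G] (M : Rep.{u, u, u} k G)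

theorem subsingleton_H1_of_isUnit_natCard (hG : IsUnit (Nat.card G : k)) :
    Subsingleton (H1 M) := by
  cases nonempty_fintype G
  rw [Nat.card_eq_fintype_card] at hG
  exact subsingleton_H1_of_isUnit_card M hG

theorem subsingleton_continuousH2_of_isUnit_natCard
    (r : G →* (AlgebraicClosure ℚ ≃ₐ[ℚ] AlgebraicClosure ℚ)) (hG : IsUnit (Nat.card G : k)) :
    Subsingleton (continuousH2 r M) := by
  cases nonempty_fintype G
  rw [Nat.card_eq_fintype_card] at hG
  exact subsingleton_continuousH2_of_isUnit_card M r hG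

end finite

section arch

instance finite_archimedeanDecomposition : Finite ↥archimedeanDecomposition := by
  have h : IsOfFinOrder complexConjugation :=
    isOfFinOrder_iff_pow_eq_one.2 ⟨2, two_pos, complexConjugation_sq⟩
  exact Finite.of_equiv _ (finEquivZPowers h)

theorem natCard_archimedeanDecomposition_dvd : Nat.card ↥archimedeanDecomposition ∣ 2 := by
  rw [archimedeanDecomposition, Nat.card_zpowers]
  exact orderOf_dvd_of_pow_eq_one complexConjugation_sq

theorem isUnit_natCard_archimedeanDecomposition {k : Type*} [CommRing k] (h2 : IsUnit (2 : k)) :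
    IsUnit (Nat.card ↥archimedeanDecomposition : k) := by
  have h := natCard_archimedeanDecomposition_dvd
  have : Nat.card ↥archimedeanDecomposition = 1 ∨ Nat.card ↥archimedeanDecomposition = 2 :=
    (Nat.dvd_prime Nat.prime_two).1 h
  rcases this with h1 | h1 <;> rw [h1]
  · simp
  · simpa using h2

variable {k : Type} [CommRing k] (M : Rep k (AlgebraicClosure ℚ ≃ₐ[ℚ] AlgebraicClosure ℚ))

theorem subsingleton_H1_arch (h2 : IsUnit (2 : k)) :
    Subsingleton (H1 (Rep.res archimedeanLoc M)) :=
  subsingleton_H1_of_isUnit_natCard _ (isUnit_natCard_archimedeanDecomposition h2)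

theorem subsingleton_continuousH2_arch (h2 : IsUnit (2 : k)) :
    Subsingleton (continuousH2 archimedeanLoc (Rep.res archimedeanLoc M)) :=
  subsingleton_continuousH2_of_isUnit_natCard _ _ (isUnit_natCard_archimedeanDecomposition h2)

variable (S : Finset Nat.Primes)

/-- `sha₂` only sees the finite places `q ∈ S` (when `2` is invertible). -/
theorem mem_sha₂_iff (h2 : IsUnit (2 : k)) (x : continuousH2S S M) :
    x ∈ sha₂ S M ↔ ∀ q : ↥S, locRes₂S S M (primeLocalToGlobal q.1) x = 0 := by
  rw [sha₂, LinearMap.mem_ker]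
  constructor
  · intro h q
    exact congrFun h (Sum.inr q)
  · intro h
    funext v
    rcases v with v | q
    · have := subsingleton_continuousH2_arch M h2
      exact Subsingleton.elim
        (α := continuousH2 archimedeanLoc (Rep.res archimedeanLoc M)) _ _
    · exact h q

end arch

section archField

variable {K : Type} [Field K] (A : Rep K (AlgebraicClosure ℚ ≃ₐ[ℚ] AlgebraicClosure ℚ))
variable (S : Finset Nat.Primes)

/-- `sha₁` only sees the finite places `q ∈ S` (when `2 ≠ 0`). -/
theorem mem_sha₁_iff (h2 : (2 : K) ≠ 0) (x : H1 A) :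
    x ∈ sha₁ S A ↔ x ∈ continuousH1S S A ∧
      ∀ q : ↥S, (groupCohomology.map (primeLocalToGlobal q.1)
        (𝟙 (Rep.res (primeLocalToGlobal q.1) A)) 1).hom x = 0 := by
  rw [sha₁, Submodule.mem_inf, LinearMap.mem_ker]
  refine and_congr_right fun _ => ?_
  constructor
  · intro h q
    exact congrFun h (Sum.inr q)
  · intro h
    funext v
    rcases v with v | q
    · have : Subsingleton (H1 (Rep.res archimedeanLoc A)) :=
        subsingleton_H1_arch A (isUnit_iff_ne_zero.2 h2)
      exact Subsingleton.elim (α := H1 (Rep.res archimedeanLoc A)) _ _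
    · exact h q

end archField

section zmod

variable {p : ℕ} [Fact p.Prime]

theorem two_ne_zero_zmod (hp2 : p ≠ 2) : (2 : ZMod p) ≠ 0 := by
  intro h
  have h' : ((2 : ℕ) : ZMod p) = 0 := by exact_mod_cast h
  rw [ZMod.natCast_eq_zero_iff] at h'
  exact hp2 ((Nat.prime_dvd_prime_iff_eq Fact.out Nat.prime_two).1 h')

theorem isUnit_two_zmod (hp2 : p ≠ 2) : IsUnit (2 : ZMod p) :=
  isUnit_iff_ne_zero.2 (two_ne_zero_zmod hp2)

variable (S : Finset Nat.Primes) (M : Rep (ZMod p) (AlgebraicClosure ℚ ≃ₐ[ℚ] AlgebraicClosure ℚ))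

theorem mem_sha₂_iff_zmod (hp2 : p ≠ 2) (x : continuousH2S S M) :
    x ∈ sha₂ S M ↔ ∀ q : ↥S, locRes₂S S M (primeLocalToGlobal q.1) x = 0 :=
  mem_sha₂_iff M S (isUnit_two_zmod hp2) x

theorem mem_sha₁_iff_zmod (hp2 : p ≠ 2) (x : H1 M) :
    x ∈ sha₁ S M ↔ x ∈ continuousH1S S M ∧
      ∀ q : ↥S, (groupCohomology.map (primeLocalToGlobal q.1)
        (𝟙 (Rep.res (primeLocalToGlobal q.1) M)) 1).hom x = 0 :=
  mem_sha₁_iff M S (two_ne_zero_zmod hp2) x

end zmod

end Fermat.Agent.PT.BR.ArchVanish13

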