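/-
Program F (S55, Poitou–Tate), chapter BR (bridge to the prelude), helper29.

`(G0) ⇒ S55`: since ANY pairing will do, the statement S55 follows from the equality of the
(finite) dimensions of `sha₁ S M'` and `sha₂ S M`.  Pure linear algebra.
-/
import Mathlib
import Fermat.Prelude.Def_GroupCohomology_ContinuousUnramified

set_option autoImplicit false

namespace Fermat.Agent.PT.BR.Reduce29

open Module

/-- Two finite-dimensional vector spaces of the same dimension carry a bilinear pairing which is
nondegenerate on both sides. -/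
theorem exists_pairing_of_finrank_eq {k V W : Type*} [Field k] [AddCommGroup V] [Module k V]
    [AddCommGroup W] [Module k W] [FiniteDimensional k V] [FiniteDimensional k W]
    (h : finrank k V = finrank k W) :
    ∃ B : V →ₗ[k] W →ₗ[k] k,
      (∀ y, (∀ x, B y x = 0) → y = 0) ∧ (∀ x, (∀ y, B y x = 0) → x = 0) := by
  classical
  let e₁ : V ≃ₗ[k] W := LinearEquiv.ofFinrankEq V W h
  let b := Module.Free.chooseBasis k W
  let e₂ : W ≃ₗ[k] Dual k W := b.toDualEquiv
  let e : V ≃ₗ[k] Dual k W := e₁.trans e₂
  refine ⟨e.toLinearMap, ?_, ?_⟩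
  · intro y hy
    have : e y = 0 := LinearMap.ext hy
    exact (LinearEquiv.map_eq_zero_iff e).mp this
  · intro x hx
    rw [← Module.forall_dual_apply_eq_zero_iff k x]
    intro φ
    obtain ⟨y, rfl⟩ := e.surjective φ
    exact hx y

/-- A pairing nondegenerate on both sides between finite-dimensional spaces forces equal
dimensions (the converse; shows that `(G0)` is EQUIVALENT to S55). -/
theorem finrank_eq_of_pairing {k V W : Type*} [Field k] [AddCommGroup V] [Module k V]
    [AddCommGroup W] [Module k W] [FiniteDimensional k V] [FiniteDimensional k W]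
    (B : V →ₗ[k] W →ₗ[k] k) (hl : ∀ y, (∀ x, B y x = 0) → y = 0)
    (hr : ∀ x, (∀ y, B y x = 0) → x = 0) : finrank k V = finrank k W := by
  have h1 : Function.Injective B := by
    rw [← LinearMap.ker_eq_bot, LinearMap.ker_eq_bot']
    intro y hy
    exact hl y (fun x => by rw [hy]; rfl)
  have h2 : Function.Injective B.flip := by
    rw [← LinearMap.ker_eq_bot, LinearMap.ker_eq_bot']
    intro x hx
    exact hr x (fun y => by
      have := congrArg (fun f => f y) hx
      simpa using this)
  have le1 := LinearMap.finrank_le_finrank_of_injective h1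
  have le2 := LinearMap.finrank_le_finrank_of_injective h2
  rw [Subspace.dual_finrank_eq] at le1 le2
  exact le_antisymm le1 le2

open groupCohomology ExtCitation in
/-- **(G0) ⇒ S55**, in exactly the shape of the frozen statement S55 (all other hypotheses of S55
are used only to establish (G0)). -/
theorem s55_of_finrank_eq {p : ℕ} [Fact p.Prime] (S : Finset Nat.Primes)
    (M : Rep (ZMod p) (AlgebraicClosure ℚ ≃ₐ[ℚ] AlgebraicClosure ℚ))
    [FiniteDimensional (ZMod p) (sha₁ S (M.dualTwist (cycloChar p)))]
    [FiniteDimensional (ZMod p) (sha₂ S M)]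
    (h : finrank (ZMod p) (sha₁ S (M.dualTwist (cycloChar p))) = finrank (ZMod p) (sha₂ S M)) :
    ∃ B : sha₁ S (M.dualTwist (cycloChar p)) →ₗ[ZMod p] sha₂ S M →ₗ[ZMod p] ZMod p,
      (∀ y, (∀ x, B y x = 0) → y = 0) ∧ (∀ x, (∀ y, B y x = 0) → x = 0) :=
  exists_pairing_of_finrank_eq h

end Fermat.Agent.PT.BR.Reduce29
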