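/-
Program F (S55), chapter BR: the Tate–Shafarevich groups of the prelude in the level-cohomology
model of PRO (`LevelCoh28`, `LevelCohRes28`):

  `sha₂ S M ≃ ker (H²(Γ, 𝓑_S; M) → ∏_{q ∈ S} H²(Γ_q, 𝓑_q; M))`,
  `sha₁ S A ≃ ker (H¹(Γ, 𝓑_S; A) → ∏_{q ∈ S} H¹(Γ_q, 𝓑_q; A))`      (for `2` invertible).
-/
import Mathlib
import Fermat.Agent.PT.PRO.LevelCohRes28
import Fermat.Agent.PT.BR.LevelBridge13
import Fermat.Agent.PT.BR.ArchVanish13
import Fermat.Agent.PT.BR.Reduce29

set_option autoImplicit false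

open groupCohomology CategoryTheory ExtCitation

namespace Fermat.Agent.PT.BR.ShaBridge13

open Fermat.Agent.PT.PRO Fermat.Agent.PT.BR.LevelBridge13

local notation "Qbar" => AlgebraicClosure ℚ
local notation "Γ" => (AlgebraicClosure ℚ ≃ₐ[ℚ] AlgebraicClosure ℚ)

section Res

variable {k : Type} [CommRing k] (S : Finset Nat.Primes) {G : Type} [Group G] (r : G →* Γ)

/-- `r : G → Γ` is continuous for the pulled-back basis and the `S`-basis. -/
theorem isLevelHom_pull : LevelCohRes28.IsLevelHom r (pullSets r) (globalSets S) := by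
  rintro _ ⟨F, hF, rfl⟩
  exact ⟨_, ⟨F, hF.1, rfl⟩, le_rfl⟩

variable (M : Rep k Γ)

/-- Localisation `H²(Γ, 𝓑_S; M) → H²(G, r⁻¹𝓑; M)`. -/
noncomputable def resH2 : LevelCoh28.H2 (globalBasis S) M →ₗ[k] LevelCoh28.H2 (pullBasis r) (Rep.res r M) :=
  LevelCohRes28.ppH2 (𝓑G := pullBasis r) (𝓑H := globalBasis S) r
    (LinearMap.id : M →ₗ[k] Rep.res r M) (fun _ _ => rfl) (isLevelHom_pull S r)

/-- Localisation `H¹(Γ, 𝓑_S; M) → H¹(G, r⁻¹𝓑; M)`. -/
noncomputable def resH1 : LevelCoh28.H1 (globalBasis S) M →ₗ[k] LevelCoh28.H1 (pullBasis r) (Rep.res r M) :=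
  LevelCohRes28.ppH1 (𝓑G := pullBasis r) (𝓑H := globalBasis S) r
    (LinearMap.id : M →ₗ[k] Rep.res r M) (fun _ _ => rfl) (isLevelHom_pull S r)

/-- **`locRes₂S` is the localisation map of level cohomology.** -/
theorem continuousH2Equiv_locRes₂S (x : continuousH2S S M) :
    continuousH2Equiv r (Rep.res r M) (locRes₂S S M r x) =
      resH2 S r M (continuousH2SEquiv S M x) := by
  obtain ⟨c, rfl⟩ := Submodule.Quotient.mk_surjective _ x
  rfl

theorem resH2_mk (c : ↥(LevelCoh28.Z2 (globalBasis S) M)) :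
    resH2 S r M (LevelCoh28.H2mk (globalBasis S) M c) =
      LevelCoh28.H2mk (pullBasis r) (Rep.res r M)
        (LevelCohRes28.ppZ2 (𝓑G := pullBasis r) (𝓑H := globalBasis S) r
          (LinearMap.id : M →ₗ[k] Rep.res r M) (fun _ _ => rfl) (isLevelHom_pull S r) c) := rfl

theorem resH1_mk (c : ↥(LevelCoh28.Z1 (globalBasis S) M)) :
    resH1 S r M (LevelCoh28.H1mk (globalBasis S) M c) =
      LevelCoh28.H1mk (pullBasis r) (Rep.res r M)
        (LevelCohRes28.ppZ1 (𝓑G := pullBasis r) (𝓑H := globalBasis S) r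
          (LinearMap.id : M →ₗ[k] Rep.res r M) (fun _ _ => rfl) (isLevelHom_pull S r) c) := rfl

/-- The localisation of a level class vanishes in level `H¹` iff its image in the ABSTRACT `H¹`
of the prelude vanishes. -/
theorem resH1_eq_zero_iff (y : LevelCoh28.H1 (globalBasis S) M) :
    resH1 S r M y = 0 ↔
      (groupCohomology.map r (𝟙 (Rep.res r M)) 1).hom (toH1 (globalBasis S) M y) = 0 := by
  obtain ⟨c, rfl⟩ := LevelCoh28.H1mk_surjective _ _ y
  rw [resH1_mk, LevelCoh28.H1mk_eq_zero_iff, toH1_mk, map_H1π_eq_zero_iff]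
  rfl

end Res

section Sha

variable {k : Type} [CommRing k] (S : Finset Nat.Primes) (M : Rep k Γ)

/-- The total localisation map in degree 2 (finite places of `S` only). -/
noncomputable def locH2 : LevelCoh28.H2 (globalBasis S) M →ₗ[k]
    ∀ q : ↥S, LevelCoh28.H2 (pullBasis (primeLocalToGlobal q.1))
      (Rep.res (primeLocalToGlobal q.1) M) :=
  LinearMap.pi fun q => resH2 S (primeLocalToGlobal q.1) M

/-- The total localisation map in degree 1 (finite places of `S` only). -/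
noncomputable def locH1 : LevelCoh28.H1 (globalBasis S) M →ₗ[k]
    ∀ q : ↥S, LevelCoh28.H1 (pullBasis (primeLocalToGlobal q.1))
      (Rep.res (primeLocalToGlobal q.1) M) :=
  LinearMap.pi fun q => resH1 S (primeLocalToGlobal q.1) M

theorem mem_ker_locH2_iff (x : LevelCoh28.H2 (globalBasis S) M) :
    x ∈ LinearMap.ker (locH2 S M) ↔ ∀ q : ↥S, resH2 S (primeLocalToGlobal q.1) M x = 0 := by
  rw [LinearMap.mem_ker]
  exact ⟨fun h q => congrFun h q, fun h => funext h⟩

theorem mem_ker_locH1_iff (x : LevelCoh28.H1 (globalBasis S) M) :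
    x ∈ LinearMap.ker (locH1 S M) ↔ ∀ q : ↥S, resH1 S (primeLocalToGlobal q.1) M x = 0 := by
  rw [LinearMap.mem_ker]
  exact ⟨fun h q => congrFun h q, fun h => funext h⟩

/-- `sha₂` corresponds to the kernel of the total localisation map of level cohomology. -/
theorem map_sha₂ (h2 : IsUnit (2 : k)) :
    (sha₂ S M).map (continuousH2SEquiv S M : continuousH2S S M →ₗ[k] _) =
      LinearMap.ker (locH2 S M) := by
  ext y
  rw [Submodule.mem_map, mem_ker_locH2_iff]
  constructor
  · rintro ⟨x, hx, rfl⟩ q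
    have := (ArchVanish13.mem_sha₂_iff M S h2 x).1 hx q
    have h3 := continuousH2Equiv_locRes₂S S (primeLocalToGlobal q.1) M x
    rw [this, map_zero] at h3
    exact h3.symm
  · intro h
    refine ⟨(continuousH2SEquiv S M).symm y, ?_, by simp⟩
    rw [ArchVanish13.mem_sha₂_iff M S h2]
    intro q
    have h3 := continuousH2Equiv_locRes₂S S (primeLocalToGlobal q.1) M
      ((continuousH2SEquiv S M).symm y)
    rw [LinearEquiv.apply_symm_apply, h q] at h3
    exact (LinearEquiv.map_eq_zero_iff _).1 h3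

/-- **`sha₂ S M` is the kernel of `H²(G_S, M) → ∏_{q ∈ S} H²(Γ_q, M)`** in level cohomology. -/
noncomputable def sha₂Equiv (h2 : IsUnit (2 : k)) :
    ↥(sha₂ S M) ≃ₗ[k] ↥(LinearMap.ker (locH2 S M)) :=
  ((continuousH2SEquiv S M).submoduleMap (sha₂ S M)).trans
    (LinearEquiv.ofEq _ _ (map_sha₂ S M h2))

end Sha

section Sha1

variable {K : Type} [Field K] (S : Finset Nat.Primes) (A : Rep K Γ)

/-- `sha₁`, as a submodule of `continuousH1S`, corresponds to the kernel of the total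
localisation map of level cohomology. -/
theorem toH1_mem_sha₁_iff (h2 : (2 : K) ≠ 0) (y : LevelCoh28.H1 (globalBasis S) A) :
    toH1 (globalBasis S) A y ∈ sha₁ S A ↔ y ∈ LinearMap.ker (locH1 S A) := by
  rw [ArchVanish13.mem_sha₁_iff A S h2, mem_ker_locH1_iff]
  constructor
  · rintro ⟨-, h⟩ q
    exact (resH1_eq_zero_iff S _ A y).2 (h q)
  · intro h
    refine ⟨?_, fun q => (resH1_eq_zero_iff S _ A y).1 (h q)⟩
    rw [← range_toH1_globalBasis]
    exact ⟨y, rfl⟩

/-- **`sha₁ S A` is the kernel of `H¹(G_S, A) → ∏_{q ∈ S} H¹(Γ_q, A)`** in level cohomology. -/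
noncomputable def sha₁Equiv (h2 : (2 : K) ≠ 0) :
    ↥(LinearMap.ker (locH1 S A)) ≃ₗ[K] ↥(sha₁ S A) :=
  LinearEquiv.ofBijective
    ((toH1 (globalBasis S) A ∘ₗ (LinearMap.ker (locH1 S A)).subtype).codRestrict (sha₁ S A)
      (fun y => (toH1_mem_sha₁_iff S A h2 y.1).2 y.2))
    ⟨by
      intro y y' h
      have h' := congrArg Subtype.val h
      exact Subtype.ext (toH1_injective _ _ h'),
     by
      intro x
      have hx := x.2
      have hx' : (x : H1 A) ∈ continuousH1S S A := hx.1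
      rw [← range_toH1_globalBasis] at hx'
      obtain ⟨y, hy⟩ := hx'
      refine ⟨⟨y, (toH1_mem_sha₁_iff S A h2 y).1 (by rw [hy]; exact hx)⟩, Subtype.ext hy⟩⟩

theorem finrank_sha₁ (h2 : (2 : K) ≠ 0) :
    Module.finrank K ↥(sha₁ S A) = Module.finrank K ↥(LinearMap.ker (locH1 S A)) :=
  (sha₁Equiv S A h2).finrank_eq.symm

theorem finrank_sha₂ (M : Rep K Γ) (h2 : (2 : K) ≠ 0) :
    Module.finrank K ↥(sha₂ S M) = Module.finrank K ↥(LinearMap.ker (locH2 S M)) :=
  (sha₂Equiv S M (isUnit_iff_ne_zero.2 h2)).finrank_eq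

end Sha1

/-! ### The reduction of S55 to a statement about level cohomology -/

section Final

variable {p : ℕ} [Fact p.Prime]

/-- General form: any pair `(A, M)`. -/
theorem exists_pairing_of_level (hp2 : p ≠ 2) (S : Finset Nat.Primes) (A M : Rep (ZMod p) Γ)
    [FiniteDimensional (ZMod p) ↥(LinearMap.ker (locH1 S A))]
    [FiniteDimensional (ZMod p) ↥(LinearMap.ker (locH2 S M))]
    (h : Module.finrank (ZMod p) ↥(LinearMap.ker (locH1 S A)) =
      Module.finrank (ZMod p) ↥(LinearMap.ker (locH2 S M))) :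
    ∃ B : sha₁ S A →ₗ[ZMod p] sha₂ S M →ₗ[ZMod p] ZMod p,
      (∀ y, (∀ x, B y x = 0) → y = 0) ∧ (∀ x, (∀ y, B y x = 0) → x = 0) := by
  have h2 : (2 : ZMod p) ≠ 0 := ArchVanish13.two_ne_zero_zmod hp2
  have : FiniteDimensional (ZMod p) ↥(sha₁ S A) :=
    LinearEquiv.finiteDimensional (sha₁Equiv S A h2)
  have : FiniteDimensional (ZMod p) ↥(sha₂ S M) :=
    LinearEquiv.finiteDimensional (sha₂Equiv S M (isUnit_iff_ne_zero.2 h2)).symm
  apply Reduce29.exists_pairing_of_finrank_eq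
  rw [finrank_sha₁ S _ h2, finrank_sha₂ S M h2, h]

/-- **S55 from the level-cohomology form of Poitou–Tate**: it suffices to prove that the kernels
of the total localisation maps `H¹(G_S, M') → ∏_{q ∈ S} H¹(Γ_q, M')` and
`H²(G_S, M) → ∏_{q ∈ S} H²(Γ_q, M)` (level cohomology, `M' = M.dualTwist (cycloChar p)`) are
finite-dimensional of the same dimension.  (`A` is a name for `M'`: instance search under binders
does not see through `Rep.of`.) -/
theorem s55_of_level (hp2 : p ≠ 2) (S : Finset Nat.Primes) (M A : Rep (ZMod p) Γ)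
    (hA : A = M.dualTwist (cycloChar p))
    [FiniteDimensional (ZMod p) ↥(LinearMap.ker (locH1 S A))]
    [FiniteDimensional (ZMod p) ↥(LinearMap.ker (locH2 S M))]
    (h : Module.finrank (ZMod p) ↥(LinearMap.ker (locH1 S A)) =
      Module.finrank (ZMod p) ↥(LinearMap.ker (locH2 S M))) :
    ∃ B : sha₁ S (M.dualTwist (cycloChar p)) →ₗ[ZMod p] sha₂ S M →ₗ[ZMod p] ZMod p,
      (∀ y, (∀ x, B y x = 0) → y = 0) ∧ (∀ x, (∀ y, B y x = 0) → x = 0) := by
  subst hA
  exact exists_pairing_of_level hp2 S _ M h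

end Final

end Fermat.Agent.PT.BR.ShaBridge13
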