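/-
Program F (S55), chapter BR: the prelude's `IntermediateField.IsUnramifiedOutside S` for a finite
Galois `L/ℚ` inside `ℚ̄` is GLOB's `Interface23.IsUnramifiedOutside S ℚ L`.
-/
import Mathlib
import Fermat.Agent.PT.BR.UnramBridge13
import Fermat.Agent.PT.GLOB.Interface23

set_option autoImplicit false

open NumberField IsDedekindDomain
open scoped Pointwise

namespace Fermat.Agent.PT.BR.UnramGlob13

open Fermat.Agent.PT.GLOB Fermat.Agent.S13.UnramRam

local notation "Qbar" => AlgebraicClosure ℚ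

/-- A nonzero prime of the ring of integers of a number field contains a rational prime. -/
theorem exists_prime_natCast_mem {L : Type*} [Field L] [NumberField L] (P : Ideal (𝓞 L))
    [P.IsPrime] (hP : P ≠ ⊥) : ∃ ℓ : ℕ, ℓ.Prime ∧ (ℓ : 𝓞 L) ∈ P := by
  have : Finite (𝓞 L ⧸ P) := Ideal.finiteQuotientOfFreeOfNeBot P hP
  obtain ⟨ℓ, hℓ⟩ := CharP.exists (𝓞 L ⧸ P)
  have hprime : ℓ.Prime := by
    rcases CharP.char_is_prime_or_zero (𝓞 L ⧸ P) ℓ with h | h
    · exact h
    · exfalso; exact CharP.char_ne_zero_of_finite (𝓞 L ⧸ P) ℓ h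
  refine ⟨ℓ, hprime, ?_⟩
  rw [← Ideal.Quotient.eq_zero_iff_mem, map_natCast]
  exact CharP.cast_eq_zero _ _

/-- Two distinct rational primes cannot lie in the same prime ideal. -/
theorem eq_of_natCast_mem {R : Type*} [CommRing R] (P : Ideal R) [P.IsPrime] {q q' : ℕ}
    (hq : q.Prime) (hq' : q'.Prime) (h : (q : R) ∈ P) (h' : (q' : R) ∈ P) : q = q' := by
  by_contra hne
  have hco : IsCoprime (q : ℤ) (q' : ℤ) :=
    Nat.isCoprime_iff_coprime.2 ((Nat.coprime_primes hq hq').2 hne)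
  obtain ⟨u, v, huv⟩ := hco
  have h1 : ((u * q + v * q' : ℤ) : R) ∈ P := by
    push_cast
    exact P.add_mem (P.mul_mem_left _ h) (P.mul_mem_left _ h')
  rw [huv] at h1
  exact (Ideal.IsPrime.ne_top inferInstance) ((Ideal.eq_top_iff_one P).2 (by simpa using h1))

variable (S : Finset Nat.Primes)

/-- **Bridge to GLOB**: for `L/ℚ` finite Galois inside `ℚ̄`, the prelude's notion of "unramified
outside `S`" is GLOB's. -/
theorem isUnramifiedOutside_iff (L : IntermediateField ℚ Qbar) [FiniteDimensional ℚ L]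
    [IsGalois ℚ L] :
    L.IsUnramifiedOutside S ↔ Interface23.IsUnramifiedOutside S ℚ L := by
  rw [UnramBridge13.isUnramifiedOutside_iff_inertia]
  constructor
  · intro h P
    obtain ⟨ℓ, hℓ, hℓP⟩ := exists_prime_natCast_mem P.1.asIdeal P.1.ne_bot
    have hℓS : (⟨ℓ, hℓ⟩ : Nat.Primes) ∉ S := by
      intro hmem
      apply P.2 ⟨ℓ, hℓ⟩ hmem
      simpa using hℓP
    exact h ⟨ℓ, hℓ⟩ hℓS P.1.asIdeal P.1.isPrime hℓP
  · intro h q hq P hP hqP
    have hP0 : P ≠ ⊥ := by
      rintro rfl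
      have h0 : ((q : ℕ) : 𝓞 L) = 0 := hqP
      exact q.2.ne_zero (by exact_mod_cast h0)
    refine h ⟨⟨P, hP, hP0⟩, fun q' hq' hq'P => ?_⟩
    have h1 : (((q' : ℕ) : 𝓞 L)) ∈ P := by simpa using hq'P
    have h2 : (q : ℕ) = (q' : ℕ) := eq_of_natCast_mem P q.2 q'.2 hqP h1
    exact hq (by rwa [Subtype.ext h2])

end Fermat.Agent.PT.BR.UnramGlob13
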