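/-
Program F (S55), chapter BR: finite levels of `Γ_q → Γ`.

For `L/ℚ` finite Galois inside `ℚ̄`, `L_w := localField q L = ℚ_q(ι L) ⊆ PadicAlgCl q` is a
compositum of `ℚ_q` and `L` in the sense of `GLOB/TensorCoind21` (hence finite Galois over `ℚ_q`,
and `res : Gal(L_w/ℚ_q) → Gal(L/ℚ)` is injective), and the square

    Γ_q ───────── localGaloisToGlobal ────────→ Γ
     │ restrictNormalHom L_w                     │ restrictNormalHom L
     ↓                                           ↓
  Gal(L_w/ℚ_q) ──────────── res ─────────→ Gal(L/ℚ)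

commutes.
-/
import Mathlib
import Fermat.Agent.PT.BR.LocInj13
import Fermat.Agent.PT.GLOB.TensorCoind21

set_option autoImplicit false

open IntermediateField

namespace Fermat.Agent.PT.BR.LocalLevel13

open Fermat.Agent.PT.BR.LocInj13 Fermat.Agent.PT.GLOB.TensorCoind21

local notation "Qbar" => AlgebraicClosure ℚ

variable (q : ℕ) [Fact q.Prime] (L : IntermediateField ℚ Qbar)

/-- The embedding `L → L_w` induced by `ι : ℚ̄ → PadicAlgCl q`. -/
noncomputable def toLocalField : L →ₐ[ℚ] (localField q L) :=
  ((padicEmbedding q).comp L.val).codRestrict ((localField q L).restrictScalars ℚ).toSubalgebra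
    fun x => padicEmbedding_mem_localField q x.2

@[simp] theorem coe_toLocalField (x : L) :
    ((toLocalField q L x : localField q L) : PadicAlgCl q) = padicEmbedding q (x : Qbar) := rfl

/-- The `L`-algebra structure of `L_w`. -/
@[reducible] noncomputable def algebraLocalField : Algebra L (localField q L) :=
  (toLocalField q L).toRingHom.toAlgebra

attribute [local instance] algebraLocalField

theorem algebraMap_localField_apply (x : L) :
    ((algebraMap L (localField q L) x : localField q L) : PadicAlgCl q)
      = padicEmbedding q (x : Qbar) := rfl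

instance isScalarTower_rat_localField : IsScalarTower ℚ L (localField q L) :=
  IsScalarTower.of_algebraMap_eq' (Subsingleton.elim _ _)

instance isScalarTower_rat_padic_localField : IsScalarTower ℚ ℚ_[q] (localField q L) :=
  IsScalarTower.of_algebraMap_eq' (Subsingleton.elim _ _)

/-- `L_w` is the compositum of `ℚ_q` and `L`. -/
theorem isCompositum : IsCompositum L ℚ_[q] (localField q L) := by
  unfold IsCompositum
  apply IntermediateField.map_injective (localField q L).val
  rw [IntermediateField.adjoin_map, ← AlgHom.fieldRange_eq_map, IntermediateField.fieldRange_val]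
  have : (localField q L).val '' Set.range (algebraMap L (localField q L))
      = padicEmbedding q '' (L : Set Qbar) := by
    ext y
    constructor
    · rintro ⟨_, ⟨x, rfl⟩, rfl⟩
      exact ⟨x, x.2, rfl⟩
    · rintro ⟨x, hx, rfl⟩
      exact ⟨algebraMap L (localField q L) ⟨x, hx⟩, ⟨⟨x, hx⟩, rfl⟩, rfl⟩
  rw [this]; rfl

section Galois

variable [FiniteDimensional ℚ L] [IsGalois ℚ L]

instance isGalois_localField : IsGalois ℚ_[q] (localField q L) :=
  (isCompositum q L).isGalois (k := ℚ)

omit [FiniteDimensional ℚ L] in
/-- `Gal(L_w/ℚ_q) → Gal(L/ℚ)` is injective (its image is the decomposition group). -/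
theorem res_injective : Function.Injective (res ℚ L ℚ_[q] (localField q L)) :=
  Fermat.Agent.PT.GLOB.TensorCoind21.res_injective (isCompositum q L)

/-- The square `Γ_q → Γ → Gal(L/ℚ)`, `Γ_q → Gal(L_w/ℚ_q) → Gal(L/ℚ)` commutes. -/
theorem res_restrictNormalHom (τ : PadicAlgCl q ≃ₐ[ℚ_[q]] PadicAlgCl q) :
    res ℚ L ℚ_[q] (localField q L) (AlgEquiv.restrictNormalHom (localField q L) τ)
      = AlgEquiv.restrictNormalHom L (localGaloisToGlobal q τ) := by
  refine AlgEquiv.ext fun x => ?_
  have hinj : Function.Injective (algebraMap L (localField q L)) :=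
    (algebraMap L (localField q L)).injective
  apply hinj
  rw [algebraMap_res (k := ℚ)]
  apply Subtype.ext
  rw [algebraMap_localField_apply]
  have h1 : (((AlgEquiv.restrictNormalHom (localField q L) τ)
      (algebraMap L (localField q L) x) : localField q L) : PadicAlgCl q)
      = τ (padicEmbedding q (x : Qbar)) :=
    AlgEquiv.restrictNormal_commutes τ (localField q L) (algebraMap L (localField q L) x)
  have h2 : (((AlgEquiv.restrictNormalHom L (localGaloisToGlobal q τ)) x : L) : Qbar)
      = localGaloisToGlobal q τ (x : Qbar) :=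
    AlgEquiv.restrictNormal_commutes (localGaloisToGlobal q τ) L x
  rw [h1, h2, padicEmbedding_localGaloisToGlobal]

/-- Every element of `Gal(L_w/ℚ_q)` is the restriction of an element of `Γ_q`. -/
theorem restrictNormalHom_localField_surjective :
    Function.Surjective (AlgEquiv.restrictNormalHom (F := ℚ_[q]) (K₁ := PadicAlgCl q)
      (localField q L)) :=
  AlgEquiv.restrictNormalHom_surjective _

/-- The image of `Gal(L_w/ℚ_q)` in `Gal(L/ℚ)` is the image of `Γ_q`. -/
theorem range_res_eq :
    (res ℚ L ℚ_[q] (localField q L)).range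
      = ((AlgEquiv.restrictNormalHom (F := ℚ) (K₁ := Qbar) L).comp (localGaloisToGlobal q)).range := by
  ext σ
  constructor
  · rintro ⟨d, rfl⟩
    obtain ⟨τ, rfl⟩ := restrictNormalHom_localField_surjective q L d
    exact ⟨τ, (res_restrictNormalHom q L τ).symm⟩
  · rintro ⟨τ, rfl⟩
    exact ⟨_, res_restrictNormalHom q L τ⟩

end Galois

end Fermat.Agent.PT.BR.LocalLevel13
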