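/-
Program F (S55, Poitou–Tate), chapter BR (bridge to the prelude), helper7:
`Hom_ℤ(A, ℚ̄ˣ) ≃ A.dualTwist (cycloChar p)` for `A : Rep (ZMod p) Gal(ℚ̄/ℚ)`.

* `zetaU p : ℚ̄ˣ` the chosen primitive `p`-th root of unity (`S14.Fields.zeta p`) as a unit;
  `expZeta p : ZMod p →+ Additive ℚ̄ˣ`, `a ↦ ζ^a`: injective, range = the `p`-torsion (`μ_p`),
  `smul_expZeta : g • ζ^a = ζ^(χ(g) a)`.
* `homAction p A g φ = (a ↦ g • φ (g⁻¹ a))`, the conjugation action on `A →+ Additive ℚ̄ˣ`.
* `homMuEquiv p A : Module.Dual (ZMod p) A ≃+ (A →+ Additive ℚ̄ˣ)`, `f ↦ (a ↦ ζ^(f a))`, with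
  `homMuEquiv_ρ : homMuEquiv ((A.dualTwist χ).ρ g f) = homAction g (homMuEquiv f)`.
-/
import Mathlib
import Fermat.Prelude.Def_GroupCohomology_ContinuousUnramified
import Fermat.Agent.S14.Fields

set_option autoImplicit false

namespace Fermat.Agent.PT.BR.HomMu7

open ExtCitation
open Fermat.Agent.S14.Fields (zeta zeta_spec)

local notation "Qbar" => AlgebraicClosure ℚ
local notation "Γℚ" => (AlgebraicClosure ℚ ≃ₐ[ℚ] AlgebraicClosure ℚ)

variable (p : ℕ) [Fact p.Prime]

/-! ### `ζ` as a unit and the exponential `a ↦ ζ^a` -/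

/-- The chosen primitive `p`-th root of unity as a unit of `ℚ̄`. -/
noncomputable def zetaU : Qbarˣ :=
  Units.mk0 (zeta p) ((zeta_spec p).ne_zero (Fact.out : p.Prime).ne_zero)

@[simp] theorem coe_zetaU : ((zetaU p : Qbarˣ) : Qbar) = zeta p := rfl

theorem zetaU_spec : IsPrimitiveRoot (zetaU p) p :=
  IsPrimitiveRoot.coe_units_iff.1 (zeta_spec p)

theorem zetaU_pow_p : zetaU p ^ p = 1 := (zetaU_spec p).pow_eq_one

/-- `a ↦ ζ^a`. -/
noncomputable def expZeta : ZMod p →+ Additive Qbarˣ :=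
  ZMod.lift p ⟨zmultiplesHom (Additive Qbarˣ) (Additive.ofMul (zetaU p)), by
    rw [zmultiplesHom_apply, natCast_zsmul, ← ofMul_pow, zetaU_pow_p, ofMul_one]⟩

theorem expZeta_intCast (n : ℤ) : expZeta p (n : ZMod p) = Additive.ofMul (zetaU p ^ n) := by
  rw [expZeta, ZMod.lift_coe]
  change (zmultiplesHom (Additive Qbarˣ) (Additive.ofMul (zetaU p))) n = _
  rw [zmultiplesHom_apply, ← ofMul_zpow]

theorem expZeta_natCast (n : ℕ) : expZeta p (n : ZMod p) = Additive.ofMul (zetaU p ^ n) := by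
  have := expZeta_intCast p (n : ℤ)
  rwa [Int.cast_natCast, zpow_natCast] at this

theorem expZeta_apply (a : ZMod p) : expZeta p a = Additive.ofMul (zetaU p ^ a.val) := by
  haveI : NeZero p := ⟨(Fact.out : p.Prime).ne_zero⟩
  conv_lhs => rw [← ZMod.natCast_zmod_val a]
  exact expZeta_natCast p a.val

theorem expZeta_injective : Function.Injective (expZeta p) := by
  haveI : NeZero p := ⟨(Fact.out : p.Prime).ne_zero⟩
  rw [injective_iff_map_eq_zero]
  intro a ha
  rw [expZeta_apply] at ha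
  have h1 : zetaU p ^ a.val = 1 := ha
  have h2 : p ∣ a.val := (zetaU_spec p).dvd_of_pow_eq_one _ h1
  have h3 : a.val = 0 := Nat.eq_zero_of_dvd_of_lt h2 (ZMod.val_lt a)
  exact (ZMod.val_eq_zero a).1 h3

/-- The range of `expZeta` is the `p`-torsion of `ℚ̄ˣ`. -/
theorem exists_expZeta_eq {u : Additive Qbarˣ} (h : p • u = 0) : ∃ a : ZMod p, expZeta p a = u := by
  haveI : NeZero p := ⟨(Fact.out : p.Prime).ne_zero⟩
  have h1 : (Additive.toMul u) ^ p = 1 := h
  have h2 : ((Additive.toMul u : Qbarˣ) : Qbar) ^ p = 1 := by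
    rw [← Units.val_pow_eq_pow_val, h1, Units.val_one]
  obtain ⟨i, -, hi⟩ := (zeta_spec p).eq_pow_of_pow_eq_one h2
  refine ⟨(i : ZMod p), ?_⟩
  rw [expZeta_natCast]
  have h3 : zetaU p ^ i = Additive.toMul u := by
    ext
    rw [Units.val_pow_eq_pow_val, coe_zetaU, hi]
  rw [h3]; rfl

/-- The Galois action on `ζ`. -/
theorem smul_zetaU (g : Γℚ) : g • zetaU p = zetaU p ^ cycloExp p g := by
  ext
  rw [AlgEquiv.smul_units_def, Units.coe_map, Units.val_pow_eq_pow_val]
  exact Fermat.Agent.S14.Fields.apply_zeta p g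

/-- Galois equivariance of the exponential: `g • ζ^a = ζ^(χ(g) a)`. -/
theorem smul_expZeta (g : Γℚ) (a : ZMod p) :
    Additive.ofMul (g • Additive.toMul (expZeta p a)) =
      expZeta p (((cycloChar p g : (ZMod p)ˣ) : ZMod p) * a) := by
  haveI : NeZero p := ⟨(Fact.out : p.Prime).ne_zero⟩
  rw [coe_cycloChar, expZeta_apply, toMul_ofMul, smul_pow', smul_zetaU, ← pow_mul]
  conv_rhs => rw [← ZMod.natCast_zmod_val a, ← Nat.cast_mul, expZeta_natCast]

/-! ### `Hom_ℤ(A, ℚ̄ˣ)` -/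

variable (A : Rep (ZMod p) Γℚ)

/-- The conjugation action of `Gal(ℚ̄/ℚ)` on `Hom_ℤ(A, ℚ̄ˣ)`: `(g • φ)(a) = g • φ(g⁻¹ a)`. -/
noncomputable def homAction (g : Γℚ) (φ : A →+ Additive Qbarˣ) : A →+ Additive Qbarˣ where
  toFun a := Additive.ofMul (g • Additive.toMul (φ (A.ρ g⁻¹ a)))
  map_zero' := by
    rw [map_zero, map_zero, toMul_zero, smul_one, ofMul_one]
  map_add' a b := by
    rw [map_add, map_add, toMul_add, smul_mul', ofMul_mul]

theorem homAction_apply (g : Γℚ) (φ : A →+ Additive Qbarˣ) (a : A) :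
    homAction p A g φ a = Additive.ofMul (g • Additive.toMul (φ (A.ρ g⁻¹ a))) := rfl

/-- `f ↦ (a ↦ ζ^(f a))`. -/
noncomputable def homMu : Module.Dual (ZMod p) A →+ (A →+ Additive Qbarˣ) where
  toFun f := (expZeta p).comp f.toAddMonoidHom
  map_zero' := by
    refine DFunLike.ext _ _ fun a => ?_
    simp
  map_add' f f' := by
    refine DFunLike.ext _ _ fun a => ?_
    simp

theorem homMu_apply (f : Module.Dual (ZMod p) A) (a : A) : homMu p A f a = expZeta p (f a) := rfl

theorem homMu_injective : Function.Injective (homMu p A) := by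
  intro f f' h
  apply LinearMap.ext
  intro a
  apply expZeta_injective p
  rw [← homMu_apply, ← homMu_apply, h]

theorem homMu_surjective : Function.Surjective (homMu p A) := by
  intro φ
  have hφ : ∀ a : A, p • φ a = 0 := by
    intro a
    rw [← map_nsmul]
    have : p • a = 0 := by
      rw [← Nat.cast_smul_eq_nsmul (ZMod p), ZMod.natCast_self, zero_smul]
    rw [this, map_zero]
  choose c hc using fun a => exists_expZeta_eq p (hφ a)
  let f₀ : A →+ ZMod p :=
    { toFun := c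
      map_zero' := by
        apply expZeta_injective p
        rw [hc, map_zero, map_zero]
      map_add' := fun a b => by
        apply expZeta_injective p
        rw [hc, map_add, map_add, hc, hc] }
  refine ⟨AddMonoidHom.toZModLinearMap p f₀, ?_⟩
  refine DFunLike.ext _ _ fun a => ?_
  rw [homMu_apply]
  exact hc a

/-- `Hom_{𝔽_p}(A, 𝔽_p) ≃ Hom_ℤ(A, ℚ̄ˣ)`. -/
noncomputable def homMuEquiv : Module.Dual (ZMod p) A ≃+ (A →+ Additive Qbarˣ) :=
  AddEquiv.ofBijective (homMu p A) ⟨homMu_injective p A, homMu_surjective p A⟩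

theorem homMuEquiv_apply (f : Module.Dual (ZMod p) A) (a : A) :
    homMuEquiv p A f a = expZeta p (f a) := rfl

/-- Equivariance: the action of `A.dualTwist (cycloChar p)` on `Hom_{𝔽_p}(A, 𝔽_p)` corresponds to the
conjugation action on `Hom_ℤ(A, ℚ̄ˣ)`. -/
theorem homMuEquiv_ρ (g : Γℚ) (f : Module.Dual (ZMod p) A) :
    homMuEquiv p A ((A.dualTwist (cycloChar p)).ρ g f) = homAction p A g (homMuEquiv p A f) := by
  refine DFunLike.ext _ _ fun a => ?_
  rw [homAction_apply, homMuEquiv_apply, homMuEquiv_apply, smul_expZeta, Rep.dualTwist_ρ_apply]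
  rfl

end Fermat.Agent.PT.BR.HomMu7
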