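/-
Program F (S55, Poitou–Tate), chapter BR (bridge to the prelude), helper29 (BR lead): INTERFACE.

The prelude's "level-constant" cochains are the level cochains of PRO's framework
(`PRO/LevelCoh28`, `PRO/LevelCohRes28`) for the following families of subgroups:

* `levelsS S`      : the subgroups `Gal(ℚ̄/F)` of `Γ = Gal(ℚ̄/ℚ)`, `F` finite, unramified outside `S`;
* `levelsOf r`     : for `r : H →* Γ`, the subgroups `r⁻¹ Gal(ℚ̄/F)`, `F/ℚ` finite
                     (for `r = primeLocalToGlobal q` these are all the open subgroups of `Γ_q`);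
* `levelsOfS r S`  : the subgroups `r⁻¹ Gal(ℚ̄/F)`, `F` finite, unramified outside `S`.

Contents: the three families are level bases (`levelBasisS`, `levelBasisOf`, `levelBasisOfS`);
prelude level-constancy = `LevelCoh28.IsLevel₁/₂`; `continuousH2S S M ≃ LevelCoh28.H2 (levelBasisS S) M`
(`h2SEquiv`), `continuousH2 r M ≃ LevelCoh28.H2 (levelBasisOf r) M` (`h2Equiv`), `locRes₂S` = `ppH2`
(`h2Equiv_locRes₂S`); `LevelCoh28.H1 𝓑 A ↪ H1 A` (`toH1`), with image `continuousH1S` / `continuousH1`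
(`h1SEquiv`, `h1Equiv`), and `toH1 ∘ ppH1 = (restriction) ∘ toH1` (`toH1_ppH1_res`).
-/
import Mathlib
import Fermat.Prelude.Def_GroupCohomology_ContinuousUnramified
import Fermat.Agent.PT.PRO.LevelCoh28
import Fermat.Agent.PT.PRO.LevelCohRes28
import Fermat.Agent.PT.BR.UnramBridge13

set_option autoImplicit false
set_option linter.style.haveILetI false

namespace Fermat.Agent.PT.BR.Interface29

open groupCohomology ExtCitation Fermat.Agent.PT.PRO

/-- `Γ = Gal(ℚ̄/ℚ)`. -/
abbrev GalQ : Type := AlgebraicClosure ℚ ≃ₐ[ℚ] AlgebraicClosure ℚ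

def levelsS (S : Finset Nat.Primes) : Set (Subgroup GalQ) :=
  {U | ∃ F : IntermediateField ℚ (AlgebraicClosure ℚ), F.IsUnramifiedOutside S ∧
    U = F.fixingSubgroup}

def levelsOf {H : Type} [Group H] (r : H →* GalQ) : Set (Subgroup H) :=
  {U | ∃ F : IntermediateField ℚ (AlgebraicClosure ℚ), FiniteDimensional ℚ F ∧
    U = F.fixingSubgroup.comap r}

def levelsOfS {H : Type} [Group H] (r : H →* GalQ) (S : Finset Nat.Primes) : Set (Subgroup H) :=
  {U | ∃ F : IntermediateField ℚ (AlgebraicClosure ℚ), F.IsUnramifiedOutside S ∧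
    U = F.fixingSubgroup.comap r}

theorem finiteIndex_fixingSubgroup (F : IntermediateField ℚ (AlgebraicClosure ℚ))
    [FiniteDimensional ℚ F] : F.fixingSubgroup.FiniteIndex := by
  refine ⟨?_⟩
  rw [← IntermediateField.finrank_eq_fixingSubgroup_index]
  exact Module.finrank_pos.ne'

theorem normal_fixingSubgroup (L : IntermediateField ℚ (AlgebraicClosure ℚ)) (hL : IsGalois ℚ L) :
    L.fixingSubgroup.Normal :=
  (InfiniteGalois.normal_iff_isGalois L).2 (by convert hL; exact Subsingleton.elim _ _)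

theorem finiteIndex_comap {G G' : Type*} [Group G] [Group G'] (f : G' →* G) (H : Subgroup G)
    [H.FiniteIndex] : (H.comap f).FiniteIndex :=
  ⟨by
    rw [Subgroup.index_comap]
    exact (Subgroup.instFiniteIndex_subgroupOf H f.range).index_ne_zero⟩

theorem isLevelBasis_levelsS (S : Finset Nat.Primes) : LevelCoh28.IsLevelBasis (levelsS S) where
  nonempty := ⟨_, ⊥, IntermediateField.isUnramifiedOutside_bot S, rfl⟩
  directed := by
    rintro U ⟨F, hF, rfl⟩ V ⟨F', hF', rfl⟩
    exact ⟨_, ⟨F ⊔ F', hF.sup hF', rfl⟩, by rw [IntermediateField.fixingSubgroup_sup]⟩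
  normalCore := by
    rintro U ⟨F, hF, rfl⟩
    obtain ⟨L, hFL, hL, hLS⟩ := UnramBridge13.exists_isGalois_isUnramifiedOutside hF
    exact ⟨_, ⟨L, hLS, rfl⟩, IntermediateField.fixingSubgroup_le hFL, normal_fixingSubgroup L hL⟩
  finiteIndex := by
    rintro U ⟨F, hF, rfl⟩
    haveI := hF.1
    exact finiteIndex_fixingSubgroup F

theorem isLevelBasis_levelsOfS {H : Type} [Group H] (r : H →* GalQ) (S : Finset Nat.Primes) :
    LevelCoh28.IsLevelBasis (levelsOfS r S) where
  nonempty := ⟨_, ⊥, IntermediateField.isUnramifiedOutside_bot S, rfl⟩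
  directed := by
    rintro U ⟨F, hF, rfl⟩ V ⟨F', hF', rfl⟩
    refine ⟨_, ⟨F ⊔ F', hF.sup hF', rfl⟩, ?_⟩
    rw [IntermediateField.fixingSubgroup_sup, Subgroup.comap_inf]
  normalCore := by
    rintro U ⟨F, hF, rfl⟩
    obtain ⟨L, hFL, hL, hLS⟩ := UnramBridge13.exists_isGalois_isUnramifiedOutside hF
    haveI := normal_fixingSubgroup L hL
    exact ⟨_, ⟨L, hLS, rfl⟩, Subgroup.comap_mono (IntermediateField.fixingSubgroup_le hFL),
      inferInstance⟩
  finiteIndex := by
    rintro U ⟨F, hF, rfl⟩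
    haveI := hF.1
    haveI := finiteIndex_fixingSubgroup F
    exact finiteIndex_comap r _

theorem isLevelBasis_levelsOf {H : Type} [Group H] (r : H →* GalQ) :
    LevelCoh28.IsLevelBasis (levelsOf r) where
  nonempty := ⟨_, ⊥, inferInstance, rfl⟩
  directed := by
    rintro U ⟨F, hF, rfl⟩ V ⟨F', hF', rfl⟩
    haveI := hF; haveI := hF'
    refine ⟨_, ⟨F ⊔ F', inferInstance, rfl⟩, ?_⟩
    rw [IntermediateField.fixingSubgroup_sup, Subgroup.comap_inf]
  normalCore := by
    rintro U ⟨F, hF, rfl⟩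
    haveI := hF
    haveI := normal_fixingSubgroup (IntermediateField.normalClosure ℚ F (AlgebraicClosure ℚ))
      (IsGalois.normalClosure ℚ F (AlgebraicClosure ℚ))
    exact ⟨_, ⟨IntermediateField.normalClosure ℚ F (AlgebraicClosure ℚ),
      normalClosure.is_finiteDimensional ℚ F (AlgebraicClosure ℚ), rfl⟩,
      Subgroup.comap_mono (IntermediateField.fixingSubgroup_le
        (IntermediateField.le_normalClosure F)), inferInstance⟩
  finiteIndex := by
    rintro U ⟨F, hF, rfl⟩
    haveI := hF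
    haveI := finiteIndex_fixingSubgroup F
    exact finiteIndex_comap r _


/-- The level bases (in the sense of `PRO/LevelCoh28`). -/
def levelBasisS (S : Finset Nat.Primes) : LevelCoh28.LevelBasis GalQ :=
  ⟨levelsS S, isLevelBasis_levelsS S⟩

def levelBasisOf {H : Type} [Group H] (r : H →* GalQ) : LevelCoh28.LevelBasis H :=
  ⟨levelsOf r, isLevelBasis_levelsOf r⟩

def levelBasisOfS {H : Type} [Group H] (r : H →* GalQ) (S : Finset Nat.Primes) :
    LevelCoh28.LevelBasis H :=
  ⟨levelsOfS r S, isLevelBasis_levelsOfS r S⟩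

@[simp] theorem levelBasisS_sets (S : Finset Nat.Primes) : (levelBasisS S).sets = levelsS S := rfl

@[simp] theorem levelBasisOf_sets {H : Type} [Group H] (r : H →* GalQ) :
    (levelBasisOf r).sets = levelsOf r := rfl

@[simp] theorem levelBasisOfS_sets {H : Type} [Group H] (r : H →* GalQ) (S : Finset Nat.Primes) :
    (levelBasisOfS r S).sets = levelsOfS r S := rfl

theorem levelsOfS_subset_levelsOf {H : Type} [Group H] (r : H →* GalQ) (S : Finset Nat.Primes) :
    levelsOfS r S ⊆ levelsOf r := by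
  rintro U ⟨F, hF, rfl⟩
  exact ⟨F, hF.1, rfl⟩

theorem mem_levelsS_of {S : Finset Nat.Primes} {F : IntermediateField ℚ (AlgebraicClosure ℚ)}
    (hF : F.IsUnramifiedOutside S) : F.fixingSubgroup ∈ levelsS S := ⟨F, hF, rfl⟩

theorem levelsS_mono {S S' : Finset Nat.Primes} (h : S ⊆ S') : levelsS S ⊆ levelsS S' := by
  rintro U ⟨F, hF, rfl⟩
  exact ⟨F, hF.mono h, rfl⟩

/-! ### Continuity of the structure maps -/

theorem isLevelHom_levelsOf_levelsS {H : Type} [Group H] (r : H →* GalQ) (S : Finset Nat.Primes) :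
    LevelCohRes28.IsLevelHom r (levelsOf r) (levelsS S) := by
  rintro U ⟨F, hF, rfl⟩
  exact ⟨_, ⟨F, hF.1, rfl⟩, le_rfl⟩

theorem isLevelHom_levelsOfS_levelsS {H : Type} [Group H] (r : H →* GalQ) (S : Finset Nat.Primes) :
    LevelCohRes28.IsLevelHom r (levelsOfS r S) (levelsS S) := by
  rintro U ⟨F, hF, rfl⟩
  exact ⟨_, ⟨F, hF, rfl⟩, le_rfl⟩

theorem isLevelHom_id_levelsOf_levelsOfS {H : Type} [Group H] (r : H →* GalQ)
    (S : Finset Nat.Primes) :
    LevelCohRes28.IsLevelHom (MonoidHom.id H) (levelsOf r) (levelsOfS r S) := by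
  rintro U ⟨F, hF, rfl⟩
  exact ⟨_, ⟨F, hF.1, rfl⟩, le_rfl⟩

theorem isLevelHom_id_levelsS_mono {S S' : Finset Nat.Primes} (h : S ⊆ S') :
    LevelCohRes28.IsLevelHom (MonoidHom.id GalQ) (levelsS S') (levelsS S) := by
  intro U hU
  exact ⟨U, levelsS_mono h hU, le_rfl⟩

/-! ### Translation of level-constancy (cochain level) -/

section Translate

variable (S : Finset Nat.Primes) {X : Type*}

theorem isLevelConstantS₁_iff (f : GalQ → X) :
    IsLevelConstantS₁ S f ↔ LevelCoh28.IsLevel₁ (levelsS S) f := by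
  constructor
  · rintro ⟨F, hF, h⟩
    exact ⟨_, ⟨F, hF, rfl⟩, fun g s hs => h g s hs⟩
  · rintro ⟨_, ⟨F, hF, rfl⟩, h⟩
    exact ⟨F, hF, fun g s hs => h g s hs⟩

theorem isLevelConstantS₂_iff (f : GalQ × GalQ → X) :
    IsLevelConstantS₂ S f ↔ LevelCoh28.IsLevel₂ (levelsS S) f := by
  constructor
  · rintro ⟨F, hF, h⟩
    exact ⟨_, ⟨F, hF, rfl⟩, fun g g' s hs s' hs' => h g g' s s' hs hs'⟩
  · rintro ⟨_, ⟨F, hF, rfl⟩, h⟩
    exact ⟨F, hF, fun g g' s s' hs hs' => h g g' s hs s' hs'⟩

variable {H : Type} [Group H] (r : H →* GalQ)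

theorem isLevelConstant₁_iff (f : H → X) :
    IsLevelConstant₁ r f ↔ LevelCoh28.IsLevel₁ (levelsOf r) f := by
  constructor
  · rintro ⟨F, hF, h⟩
    exact ⟨_, ⟨F, hF, rfl⟩, fun g s hs => h g s hs⟩
  · rintro ⟨_, ⟨F, hF, rfl⟩, h⟩
    exact ⟨F, hF, fun g s hs => h g s hs⟩

theorem isLevelConstant₂_iff (f : H × H → X) :
    IsLevelConstant₂ r f ↔ LevelCoh28.IsLevel₂ (levelsOf r) f := by
  constructor
  · rintro ⟨F, hF, h⟩
    exact ⟨_, ⟨F, hF, rfl⟩, fun g g' s hs s' hs' => h g g' s s' hs hs'⟩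
  · rintro ⟨_, ⟨F, hF, rfl⟩, h⟩
    exact ⟨F, hF, fun g g' s s' hs hs' => h g g' s hs s' hs'⟩

end Translate

/-! ### Cohomology: the prelude's groups are PRO's level cohomology groups -/

section Cohomology

variable {k : Type} [CommRing k]

section Global

variable (S : Finset Nat.Primes) (M : Rep k GalQ)

theorem levelCochainsS₁_eq : levelCochainsS₁ S M = LevelCoh28.levelCochains₁ (levelBasisS S) M := by
  ext f
  exact isLevelConstantS₁_iff S f

theorem levelCochainsS₂_eq : levelCochainsS₂ S M = LevelCoh28.levelCochains₂ (levelBasisS S) M := by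
  ext f
  exact isLevelConstantS₂_iff S f

theorem levelCocyclesS₂_eq : levelCocyclesS₂ S M = LevelCoh28.Z2 (levelBasisS S) M := by
  rw [levelCocyclesS₂, LevelCoh28.Z2, levelCochainsS₂_eq]

theorem levelCoboundariesS₂_eq : levelCoboundariesS₂ S M = LevelCoh28.B2 (levelBasisS S) M := by
  rw [levelCoboundariesS₂, LevelCoh28.B2, levelCochainsS₁_eq]

/-- `H²(G_S, M)` of the prelude is PRO's level `H2` for the basis `levelBasisS S`. -/
noncomputable def h2SEquiv : continuousH2S S M ≃ₗ[k] LevelCoh28.H2 (levelBasisS S) M :=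
  Submodule.Quotient.equiv _ _ (LinearEquiv.ofEq _ _ (levelCocyclesS₂_eq S M)) (by
    ext ⟨f, hf⟩
    simp only [Submodule.mem_map, Submodule.mem_comap, Submodule.subtype_apply]
    constructor
    · rintro ⟨⟨g, hg⟩, hgB, hgf⟩
      have : g = f := congrArg Subtype.val hgf
      subst this
      rw [← levelCoboundariesS₂_eq]
      exact hgB
    · intro hfB
      refine ⟨⟨f, by rw [levelCocyclesS₂_eq]; exact hf⟩, ?_, rfl⟩
      rw [levelCoboundariesS₂_eq]
      exact hfB)

theorem h2SEquiv_mk (f : ↥(levelCocyclesS₂ S M)) :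
    h2SEquiv S M (continuousH2Sπ S M f) =
      LevelCoh28.H2mk (levelBasisS S) M ⟨f.1, by rw [← levelCocyclesS₂_eq]; exact f.2⟩ := rfl

theorem h2SEquiv_symm_mk (f : ↥(LevelCoh28.Z2 (levelBasisS S) M)) :
    (h2SEquiv S M).symm (LevelCoh28.H2mk (levelBasisS S) M f) =
      continuousH2Sπ S M ⟨f.1, by rw [levelCocyclesS₂_eq]; exact f.2⟩ := rfl

end Global

section Local

variable {H : Type} [Group H] (r : H →* GalQ) (M : Rep k H)

theorem levelCochains₁_eq :
    groupCohomology.levelCochains₁ r M = LevelCoh28.levelCochains₁ (levelBasisOf r) M := by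
  ext f
  exact isLevelConstant₁_iff r f

theorem levelCochains₂_eq :
    groupCohomology.levelCochains₂ r M = LevelCoh28.levelCochains₂ (levelBasisOf r) M := by
  ext f
  exact isLevelConstant₂_iff r f

theorem levelCocycles₂_eq :
    groupCohomology.levelCocycles₂ r M = LevelCoh28.Z2 (levelBasisOf r) M := by
  rw [groupCohomology.levelCocycles₂, LevelCoh28.Z2, levelCochains₂_eq]

theorem levelCoboundaries₂_eq :
    groupCohomology.levelCoboundaries₂ r M = LevelCoh28.B2 (levelBasisOf r) M := by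
  rw [groupCohomology.levelCoboundaries₂, LevelCoh28.B2, levelCochains₁_eq]

/-- The prelude's continuous `H²` along `r` is PRO's level `H2` for the basis `levelBasisOf r`. -/
noncomputable def h2Equiv : continuousH2 r M ≃ₗ[k] LevelCoh28.H2 (levelBasisOf r) M :=
  Submodule.Quotient.equiv _ _ (LinearEquiv.ofEq _ _ (levelCocycles₂_eq r M)) (by
    ext ⟨f, hf⟩
    simp only [Submodule.mem_map, Submodule.mem_comap, Submodule.subtype_apply]
    constructor
    · rintro ⟨⟨g, hg⟩, hgB, hgf⟩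
      have : g = f := congrArg Subtype.val hgf
      subst this
      rw [← levelCoboundaries₂_eq]
      exact hgB
    · intro hfB
      refine ⟨⟨f, by rw [levelCocycles₂_eq]; exact hf⟩, ?_, rfl⟩
      rw [levelCoboundaries₂_eq]
      exact hfB)

theorem h2Equiv_mk (f : ↥(groupCohomology.levelCocycles₂ r M)) :
    h2Equiv r M (continuousH2π r M f) =
      LevelCoh28.H2mk (levelBasisOf r) M ⟨f.1, by rw [← levelCocycles₂_eq]; exact f.2⟩ := rfl

end Local

/-- The prelude's localisation map `locRes₂S` is PRO's pull-push map `ppH2`. -/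
theorem h2Equiv_locRes₂S (S : Finset Nat.Primes) (M : Rep k GalQ) {H : Type} [Group H]
    (r : H →* GalQ) (x : continuousH2S S M) :
    h2Equiv r (Rep.res r M) (locRes₂S S M r x) =
      LevelCohRes28.ppH2 (𝓑G := levelBasisOf r) (𝓑H := levelBasisS S) r
        (LinearMap.id : M →ₗ[k] Rep.res r M) (fun _ _ => rfl)
        (isLevelHom_levelsOf_levelsS r S) (h2SEquiv S M x) := by
  induction x using Submodule.Quotient.induction_on with
  | _ f => rfl

/-! ### `H¹`: level `H1` embeds into Mathlib's abstract `H1`, with image the prelude's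
`continuousH1S` / `continuousH1` -/

section H1

variable {G : Type} [Group G] (𝓑 : LevelCoh28.LevelBasis G) (A : Rep k G)

/-- Level 1-cocycles are 1-cocycles. -/
def z1ToCocycles : ↥(LevelCoh28.Z1 𝓑 A) →ₗ[k] ↥(cocycles₁ A) :=
  Submodule.inclusion inf_le_left

@[simp] theorem coe_z1ToCocycles (c : ↥(LevelCoh28.Z1 𝓑 A)) :
    ((z1ToCocycles 𝓑 A c : cocycles₁ A) : G → A) = c.1 := rfl

/-- The canonical map from level `H¹` to Mathlib's abstract `H¹`. -/
noncomputable def toH1 : LevelCoh28.H1 𝓑 A →ₗ[k] groupCohomology.H1 A :=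
  Submodule.liftQ _ ((H1π A).hom ∘ₗ z1ToCocycles 𝓑 A) (by
    intro c hc
    rw [LinearMap.mem_ker, LinearMap.comp_apply, H1π_eq_zero_iff]
    exact hc)

theorem toH1_mk (c : ↥(LevelCoh28.Z1 𝓑 A)) :
    toH1 𝓑 A (LevelCoh28.H1mk 𝓑 A c) = (H1π A).hom (z1ToCocycles 𝓑 A c) := rfl

theorem toH1_injective : Function.Injective (toH1 𝓑 A) := by
  rw [← LinearMap.ker_eq_bot, LinearMap.ker_eq_bot']
  intro x hx
  obtain ⟨c, rfl⟩ := LevelCoh28.H1mk_surjective 𝓑 A x
  rw [toH1_mk, H1π_eq_zero_iff] at hx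
  rw [LevelCoh28.H1mk_eq_zero_iff]
  exact hx

theorem mem_range_toH1_iff (x : groupCohomology.H1 A) :
    x ∈ LinearMap.range (toH1 𝓑 A) ↔
      ∃ c : cocycles₁ A, LevelCoh28.IsLevel₁ 𝓑.sets (c : G → A) ∧ (H1π A).hom c = x := by
  constructor
  · rintro ⟨y, rfl⟩
    obtain ⟨c, rfl⟩ := LevelCoh28.H1mk_surjective 𝓑 A y
    exact ⟨z1ToCocycles 𝓑 A c, c.2.2, rfl⟩
  · rintro ⟨c, hc, rfl⟩
    exact ⟨LevelCoh28.H1mk 𝓑 A ⟨c.1, c.2, hc⟩, rfl⟩

end H1

/-- `toH1` turns PRO's pull-push `ppH1` along `r` (identity on coefficients) into Mathlib's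
restriction map `groupCohomology.map r (𝟙 _) 1`. -/
theorem toH1_ppH1_res {G H : Type} [Group G] [Group H] (𝓑G : LevelCoh28.LevelBasis G)
    (𝓑H : LevelCoh28.LevelBasis H) (r : G →* H) (M : Rep k H)
    (hf : LevelCohRes28.IsLevelHom r 𝓑G.sets 𝓑H.sets) (y : LevelCoh28.H1 𝓑H M) :
    toH1 𝓑G (Rep.res r M) (LevelCohRes28.ppH1 r (LinearMap.id : M →ₗ[k] Rep.res r M)
        (fun _ _ => rfl) hf y) =
      (groupCohomology.map r (CategoryTheory.CategoryStruct.id (Rep.res r M)) 1).hom
        (toH1 𝓑H M y) := by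
  obtain ⟨c, rfl⟩ := LevelCoh28.H1mk_surjective 𝓑H M y
  rw [LevelCohRes28.ppH1_mk, toH1_mk, toH1_mk, H1π_comp_map_apply]
  rfl

section H1Prelude

theorem range_toH1_levelBasisS (S : Finset Nat.Primes) (M : Rep k GalQ) :
    LinearMap.range (toH1 (levelBasisS S) M) = continuousH1S S M := by
  ext x
  rw [mem_range_toH1_iff, mem_continuousH1S_iff]
  exact exists_congr fun c => and_congr_left fun _ => (isLevelConstantS₁_iff S _).symm

theorem range_toH1_levelBasisOf {H : Type} [Group H] (r : H →* GalQ) (M : Rep k H) :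
    LinearMap.range (toH1 (levelBasisOf r) M) = continuousH1 r M := by
  ext x
  rw [mem_range_toH1_iff, mem_continuousH1_iff]
  exact exists_congr fun c => and_congr_left fun _ => (isLevelConstant₁_iff r _).symm

/-- PRO's level `H1` for the basis `levelBasisS S` is the prelude's `continuousH1S S M`. -/
noncomputable def h1SEquiv (S : Finset Nat.Primes) (M : Rep k GalQ) :
    LevelCoh28.H1 (levelBasisS S) M ≃ₗ[k] ↥(continuousH1S S M) :=
  (LinearEquiv.ofInjective _ (toH1_injective (levelBasisS S) M)).trans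
    (LinearEquiv.ofEq _ _ (range_toH1_levelBasisS S M))

@[simp] theorem coe_h1SEquiv (S : Finset Nat.Primes) (M : Rep k GalQ)
    (y : LevelCoh28.H1 (levelBasisS S) M) :
    ((h1SEquiv S M y : ↥(continuousH1S S M)) : groupCohomology.H1 M) = toH1 (levelBasisS S) M y :=
  rfl

/-- PRO's level `H1` for the basis `levelBasisOf r` is the prelude's `continuousH1 r M`. -/
noncomputable def h1Equiv {H : Type} [Group H] (r : H →* GalQ) (M : Rep k H) :
    LevelCoh28.H1 (levelBasisOf r) M ≃ₗ[k] ↥(continuousH1 r M) :=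
  (LinearEquiv.ofInjective _ (toH1_injective (levelBasisOf r) M)).trans
    (LinearEquiv.ofEq _ _ (range_toH1_levelBasisOf r M))

@[simp] theorem coe_h1Equiv {H : Type} [Group H] (r : H →* GalQ) (M : Rep k H)
    (y : LevelCoh28.H1 (levelBasisOf r) M) :
    ((h1Equiv r M y : ↥(continuousH1 r M)) : groupCohomology.H1 M) = toH1 (levelBasisOf r) M y :=
  rfl

end H1Prelude

end Cohomology

end Fermat.Agent.PT.BR.Interface29
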