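/-
Program F (S55, Poitou–Tate), chapter BR (bridge to the prelude), helper7:
ARCHIMEDEAN VANISHING.  For a finite group `G` whose order is invertible in `k`, the (abstract) `H¹` and
the level-continuous `H²` (`continuousH2 r M`, any `r`) vanish (averaging).  Applied to the archimedean
decomposition group `⟨complex conjugation⟩` (order dividing 2) and `k = ZMod p`, `p` odd, this makes
the `∞`-components of `sha₁`, `sha₂` vacuous: membership lemmas `mem_sha₁_iff`, `mem_sha₂_iff`.
-/
import Mathlib
import Fermat.Prelude.Def_GroupCohomology_ContinuousUnramified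

set_option autoImplicit false

namespace Fermat.Agent.PT.BR.Arch7

open CategoryTheory groupCohomology ExtCitation

local notation "Γℚ" => (AlgebraicClosure ℚ ≃ₐ[ℚ] AlgebraicClosure ℚ)

section General

variable {k : Type} [CommRing k] {G : Type} [Group G] [Finite G]

/-- Averaging in degree one: `H¹(G, M) = 0` when `|G|` is invertible in `k`. -/
theorem subsingleton_H1_of_isUnit_card (M : Rep k G) (h : IsUnit ((Nat.card G : ℕ) : k)) :
    Subsingleton (H1 M) := by
  classical
  have := Fintype.ofFinite G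
  obtain ⟨u, hu⟩ := h
  suffices ∀ z : H1 M, z = 0 from ⟨fun x y => by rw [this x, this y]⟩
  intro z
  induction z using H1_induction_on with
  | h c =>
    rw [H1π_eq_zero_iff]
    refine ⟨-(((u⁻¹ : kˣ) : k) • ∑ j : G, c j), ?_⟩
    funext g
    have hc : ∀ g j : G, c (g * j) = M.ρ g (c j) + c g := (mem_cocycles₁_iff _).1 c.2
    have hsum : ∑ j : G, c j = M.ρ g (∑ j : G, c j) + ((Nat.card G : ℕ) : k) • c g := by
      calc ∑ j : G, c j = ∑ j : G, c (g * j) :=
            (Fintype.sum_equiv (Equiv.mulLeft g) _ _ fun _ => rfl).symm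
        _ = ∑ j : G, (M.ρ g (c j) + c g) := Finset.sum_congr rfl fun j _ => hc g j
        _ = M.ρ g (∑ j : G, c j) + ((Nat.card G : ℕ) : k) • c g := by
            rw [Finset.sum_add_distrib, map_sum, Finset.sum_const, Finset.card_univ,
              Nat.card_eq_fintype_card, Nat.cast_smul_eq_nsmul]
    have hcg : c g = ((u⁻¹ : kˣ) : k) • (∑ j : G, c j - M.ρ g (∑ j : G, c j)) := by
      have h1 : ∑ j : G, c j - M.ρ g (∑ j : G, c j) = (u : k) • c g := by
        rw [hu, sub_eq_iff_eq_add']; exact hsum
      rw [h1, smul_smul, Units.inv_mul, one_smul]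
    change M.ρ g (-(((u⁻¹ : kˣ) : k) • ∑ j : G, c j)) - -(((u⁻¹ : kˣ) : k) • ∑ j : G, c j) = c g
    rw [hcg, map_neg, map_smul, smul_sub]
    abel

/-- Averaging in degree two, keeping track of the level: `continuousH2 r M = 0` when `|G|` is
invertible in `k` (for ANY `r : G →* Gal(ℚ̄/ℚ)`). -/
theorem subsingleton_continuousH2_of_isUnit_card (r : G →* Γℚ) (M : Rep k G)
    (h : IsUnit ((Nat.card G : ℕ) : k)) : Subsingleton (continuousH2 r M) := by
  classical
  have := Fintype.ofFinite G
  obtain ⟨u, hu⟩ := h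
  suffices ∀ z : continuousH2 r M, z = 0 from ⟨fun x y => by rw [this x, this y]⟩
  intro z
  obtain ⟨f, rfl⟩ := Submodule.Quotient.mk_surjective _ z
  change continuousH2π r M f = 0
  rw [continuousH2π_eq_zero_iff, mem_levelCoboundaries₂_iff]
  obtain ⟨hcoc, F, hF, hlev⟩ := f.2
  have hc : ∀ g h j : G, (f : G × G → M) (g * h, j) + (f : G × G → M) (g, h) =
      M.ρ g ((f : G × G → M) (h, j)) + (f : G × G → M) (g, h * j) := (mem_cocycles₂_iff _).1 hcoc
  set U : G → M := fun g => ∑ j : G, (f : G × G → M) (g, j) with hU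
  refine ⟨fun g => ((u⁻¹ : kˣ) : k) • U g, ⟨F, hF, ?_⟩, ?_⟩
  · intro g s hs
    change ((u⁻¹ : kˣ) : k) • U (g * s) = ((u⁻¹ : kˣ) : k) • U g
    congr 1
    refine Finset.sum_congr rfl fun j _ => ?_
    have := hlev g j s 1 hs (by rw [map_one]; exact one_mem _)
    simpa using this
  · funext ⟨g, h⟩
    rw [d₁₂_hom_apply]
    change M.ρ g (((u⁻¹ : kˣ) : k) • U h) - ((u⁻¹ : kˣ) : k) • U (g * h) + ((u⁻¹ : kˣ) : k) • U g
      = (f : G × G → M) (g, h)
    have hsum : U (g * h) + ((Nat.card G : ℕ) : k) • (f : G × G → M) (g, h) = M.ρ g (U h) + U g := by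
      calc U (g * h) + ((Nat.card G : ℕ) : k) • (f : G × G → M) (g, h)
          = ∑ j : G, ((f : G × G → M) (g * h, j) + (f : G × G → M) (g, h)) := by
            rw [Finset.sum_add_distrib, Finset.sum_const, Finset.card_univ,
              Nat.card_eq_fintype_card, Nat.cast_smul_eq_nsmul]
        _ = ∑ j : G, (M.ρ g ((f : G × G → M) (h, j)) + (f : G × G → M) (g, h * j)) :=
            Finset.sum_congr rfl fun j _ => hc g h j
        _ = M.ρ g (U h) + U g := by
            rw [Finset.sum_add_distrib, map_sum]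
            congr 1
            exact Fintype.sum_equiv (Equiv.mulLeft h) _ _ fun _ => rfl
    have hfg : (f : G × G → M) (g, h) = ((u⁻¹ : kˣ) : k) • (M.ρ g (U h) + U g - U (g * h)) := by
      have h1 : M.ρ g (U h) + U g - U (g * h) = (u : k) • (f : G × G → M) (g, h) := by
        rw [hu, sub_eq_iff_eq_add']; exact hsum.symm
      rw [h1, smul_smul, Units.inv_mul, one_smul]
    rw [hfg, map_smul, smul_sub, smul_add]
    abel

end General

/-! ### The archimedean decomposition group -/

instance finite_archimedeanDecomposition : Finite ↥archimedeanDecomposition := by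
  have h : IsOfFinOrder complexConjugation :=
    isOfFinOrder_iff_pow_eq_one.2 ⟨2, two_pos, complexConjugation_sq⟩
  exact h.finite_zpowers

theorem card_archimedeanDecomposition_dvd_two : Nat.card ↥archimedeanDecomposition ∣ 2 := by
  rw [archimedeanDecomposition, Nat.card_zpowers]
  exact orderOf_dvd_of_pow_eq_one complexConjugation_sq

theorem isUnit_card_archimedeanDecomposition {p : ℕ} [Fact p.Prime] (hp2 : p ≠ 2) :
    IsUnit ((Nat.card ↥archimedeanDecomposition : ℕ) : ZMod p) := by
  rw [ZMod.isUnit_iff_coprime]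
  refine Nat.Coprime.coprime_dvd_left card_archimedeanDecomposition_dvd_two ?_
  exact (Nat.coprime_primes Nat.prime_two Fact.out).2 (Ne.symm hp2)

variable {p : ℕ} [Fact p.Prime]

/-- The local `H²` at `∞` vanishes (`p` odd). -/
theorem subsingleton_continuousH2_arch (hp2 : p ≠ 2) (M : Rep (ZMod p) Γℚ) :
    Subsingleton (continuousH2 archimedeanLoc (Rep.res archimedeanLoc M)) :=
  subsingleton_continuousH2_of_isUnit_card _ _ (isUnit_card_archimedeanDecomposition hp2)

/-- The local `H¹` at `∞` vanishes (`p` odd). -/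
theorem subsingleton_H1_arch (hp2 : p ≠ 2) (M : Rep (ZMod p) Γℚ) :
    Subsingleton (H1 (Rep.res archimedeanLoc M)) :=
  subsingleton_H1_of_isUnit_card _ (isUnit_card_archimedeanDecomposition hp2)

/-- `sha₂` only sees the finite places of `S` (`p` odd). -/
theorem mem_sha₂_iff (hp2 : p ≠ 2) (S : Finset Nat.Primes) (M : Rep (ZMod p) Γℚ)
    (x : continuousH2S S M) :
    x ∈ sha₂ S M ↔ ∀ q : ↥S, locRes₂S S M (primeLocalToGlobal q.1) x = 0 := by
  rw [sha₂, LinearMap.mem_ker]
  constructor
  · intro h q
    have := congrFun h (Sum.inr q)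
    exact this
  · intro h
    funext v
    rcases v with v | q
    · have := subsingleton_continuousH2_arch hp2 M
      exact Subsingleton.elim (α := continuousH2 archimedeanLoc (Rep.res archimedeanLoc M)) _ _
    · exact h q

/-- `sha₁` only sees the finite places of `S` (`p` odd). -/
theorem mem_sha₁_iff (hp2 : p ≠ 2) (S : Finset Nat.Primes) (A : Rep (ZMod p) Γℚ) (x : H1 A) :
    x ∈ sha₁ S A ↔ x ∈ continuousH1S S A ∧
      ∀ q : ↥S, (locRes (extArithLoc S) A (Sum.inr q)).hom x = 0 := by
  rw [sha₁, Submodule.mem_inf, LinearMap.mem_ker]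
  refine and_congr Iff.rfl ?_
  constructor
  · intro h q
    exact congrFun h (Sum.inr q)
  · intro h
    funext v
    rcases v with v | q
    · have := subsingleton_H1_arch hp2 A
      exact Subsingleton.elim (α := H1 (Rep.res archimedeanLoc A)) _ _
    · exact h q

end Fermat.Agent.PT.BR.Arch7
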